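import Fermat.Agent.FourPrimeSquares.Series
import Fermat.Agent.WaringGoldbachAlmostAll.Major
import Fermat.Agent.HuaSquares.Circle
import Fermat.Agent.FourCubes.Major

/-!
# The mean square for four squares of primes

By Bessel the mean square over `N ≤ X` of the deviation is at most that of `g ^ 4` minus its models
on a grid, `g` the sum over primes `x` with `x ^ 2 ≤ X`: off the arcs of logarithmic size
`g ^ 8 ≤ sup g ^ 4 * g ^ 4` and the fourth moment saves every power of the logarithm, and on them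
`g` is near its model.
-/

set_option autoImplicit false

noncomputable section

namespace FA.FourPrimeSquares

open Finset ArithmeticFunction
open FA.ThreePrimes hiding mainTerm singularSeries singularTerm
open FA.WaringGoldbach (powTwist unitFactor primeRep primeTerm arcFactor)
open FA.WaringAsymptotic (rootFloor weightSum weightConv)
open scoped Real

/-- The model on one arc. -/
def fourModel (X : ℕ) (z : Σ _ : ℕ, ℕ) (t : ℝ) : ℂ :=
  unitFactor 2 z.1 z.2 ^ 4 * weightSum (1 / ((2 : ℕ) : ℝ)) X (t - centre z) ^ 4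

/-- What is left of `g ^ 4`. -/
def fourRemainder (X Q : ℕ) (t : ℝ) : ℂ :=
  powTwist 2 t Λ (rootFloor 2 X) ^ 4 - ∑ z ∈ arcCentres Q, fourModel X z t

/-- The deviation. -/
def fourDeviation (Q N : ℕ) : ℝ :=
  ‖(primeRep 2 4 Λ N : ℂ) -
    (weightConv (1 / ((2 : ℕ) : ℝ)) 4 N : ℂ) * ∑ q ∈ Icc 1 Q, primeTerm 2 4 N q‖

theorem squareRootFacts {X : ℕ} (hX : 1 ≤ X) :
    1 ≤ rootFloor 2 X ∧ rootFloor 2 X ^ 2 ≤ X ∧ X < (rootFloor 2 X + 1) ^ 2 ∧
      (X : ℝ) ≤ 4 * (rootFloor 2 X : ℝ) ^ 2 := by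
  obtain ⟨h1, h2, h3⟩ := WaringAsymptotic.rootFloor_spec (show 1 ≤ 2 by norm_num) hX
  refine ⟨h1, h2, h3, ?_⟩
  have := h3.le.trans (Nat.pow_le_pow_left (show rootFloor 2 X + 1 ≤ 2 * rootFloor 2 X by omega) 2)
  rw [mul_pow] at this
  exact_mod_cast this

/-- **The deviations and the remainder.** -/
theorem sum_deviation_le {X Q M : ℕ} (hX : 1 ≤ X) (hM : M = 4 * X) :
    (M : ℝ) * ∑ N ∈ Icc 1 X, fourDeviation Q N ^ 2 ≤
      ∑ h ∈ range M, ‖fourRemainder X Q ((h : ℝ) / M)‖ ^ 2 := by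
  have hM0 : 0 < M := by omega
  refine le_of_mul_le_mul_left ?_ (show (0 : ℝ) < M by exact_mod_cast hM0)
  rw [← AlmostGoldbach.sum_norm_sq_coeff hM0 (range M) subset_rfl
    fun h => fourRemainder X Q ((h : ℝ) / M), ← mul_assoc, mul_sum]
  refine le_trans (le_of_eq (sum_congr rfl fun N hN => ?_))
    (sum_le_sum_of_subset_of_nonneg (fun N hN => mem_range.2 (by rw [mem_Icc] at hN; omega))
      fun N _ _ => sq_nonneg _)
  rw [mem_Icc] at hN
  have hterm : ∀ h : ℕ, ∀ z : Σ _ : ℕ, ℕ, fourModel X z ((h : ℝ) / M) *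
      eAdd (-((N : ℝ) * ((h : ℝ) / M))) =
      arcFactor 2 4 N z * WaringAlmostAll.boxTerm 2 4 X N ((h : ℝ) / M + -centre z) := by
    intro h z
    rw [arcFactor, WaringAlmostAll.boxTerm, fourModel, ← sub_eq_add_neg]
    rw [show -((N : ℝ) * ((h : ℝ) / M)) =
      -((N : ℝ) * centre z) + -((N : ℝ) * ((h : ℝ) / M - centre z)) by ring, eAdd_add]
    ring
  have e : ∑ h ∈ range M, fourRemainder X Q ((h : ℝ) / M) * eAdd (-((N : ℝ) * ((h : ℝ) / M))) =
      (M : ℂ) * ((primeRep 2 4 Λ N : ℂ) - (weightConv (1 / ((2 : ℕ) : ℝ)) 4 N : ℂ) *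
        ∑ q ∈ Icc 1 Q, primeTerm 2 4 N q) := by
    simp only [fourRemainder, sub_mul, sum_mul, sum_sub_distrib, hterm]
    rw [mul_sub]
    congr 1
    · exact WaringGoldbachAlmostAll.sum_grid_primeBox (by norm_num) (by norm_num) hN.1 hN.2 hM
    · rw [sum_comm, ← WaringGoldbach.sum_arcFactor, mul_sum, mul_sum]
      refine sum_congr rfl fun z _ => ?_
      rw [← mul_sum, WaringAlmostAll.sum_grid_boxTerm (by norm_num) hN.1 hN.2 hM]
      ring
  rw [e, norm_mul, Complex.norm_natCast, mul_pow, fourDeviation]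
  ring

/-- **Off the arcs.** -/
theorem exists_minor_part (A : ℕ) : ∃ (K : ℕ) (C L₀ : ℝ), 1 ≤ K ∧ 0 < C ∧
    ∀ X M : ℕ, 1 ≤ X → L₀ ≤ Real.log (rootFloor 2 X) → Real.log (rootFloor 2 X) ^ K ≤ X →
      3 * X < M → ∀ S : Finset ℕ, S ⊆ range M →
      (∀ h ∈ S, ∀ z ∈ arcCentres ⌊Real.log (rootFloor 2 X) ^ K⌋₊,
        Real.log (rootFloor 2 X) ^ K / X < nearDist ((h : ℝ) / M - centre z)) →
      ∑ h ∈ S, ‖powTwist 2 ((h : ℝ) / M) Λ (rootFloor 2 X) ^ 4‖ ^ 2 ≤
        C * ((M : ℝ) * ((rootFloor 2 X : ℝ) ^ 6 / Real.log (rootFloor 2 X) ^ A)) := by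
  obtain ⟨K, C, L₁, hK, hC, hsup⟩ :=
    WaringGoldbach.exists_minor_bound (show 2 ≤ 2 from le_rfl) (A + 7)
  refine ⟨K, C ^ 4 * 1536, max 1 L₁, hK, by positivity,
    fun X M hX hL hlX hXM S hS hout => ?_⟩
  simp only [max_le_iff] at hL
  obtain ⟨hP1, hPX, -, -⟩ := squareRootFacts hX
  obtain ⟨P, hP⟩ : ∃ P, P = rootFloor 2 X := ⟨_, rfl⟩
  rw [← hP] at hP1 hPX hL hlX hout ⊢
  obtain ⟨l, hl⟩ : ∃ l, l = Real.log P := ⟨_, rfl⟩
  rw [← hl] at hL hlX hout ⊢
  have hl1 : 1 ≤ l := hL.1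
  refine (sum_le_sum (g := fun h : ℕ => (C * (P / l ^ (A + 7))) ^ 4 *
    ‖HuaSquares.squareTwist ((h : ℝ) / M) Λ P‖ ^ 4) fun h hh => ?_).trans ?_
  · rw [norm_pow, ← pow_mul, show 4 * 2 = 4 + 4 from rfl, pow_add]
    refine mul_le_mul (pow_le_pow_left₀ (norm_nonneg _) ?_ 4) le_rfl (by positivity) (by positivity)
    rw [hl]
    exact hsup X P _ hP hX (hl ▸ hL.2) (hl ▸ hlX) fun z hz => hl ▸ hout h hh z (hl ▸ hz)
  rw [← mul_sum]
  refine (mul_le_mul_of_nonneg_left ((sum_le_sum_of_subset_of_nonneg hS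
    fun i _ _ => by positivity).trans_eq (HuaSquares.sum_norm_squareTwist_pow_four _ (by omega)))
    (by positivity)).trans ?_
  have hq4 : HuaSquares.quadrupleSum Λ P ≤ l ^ 4 * (3 * (P : ℝ) ^ 2 * (8 * l) ^ 3) := by
    refine (HuaSquares.quadrupleSum_le (B := l) fun n hn => ?_).trans ?_
    · rw [mem_Ioc] at hn
      rw [abs_of_nonneg vonMangoldt_nonneg, hl]
      exact vonMangoldt_le_log.trans
        (Real.log_le_log (Nat.cast_pos.2 hn.1) (Nat.cast_le.2 hn.2))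
    · refine mul_le_mul_of_nonneg_left (mul_le_mul_of_nonneg_left (pow_le_pow_left₀
        (by linarith [HuaSquares.one_le_scale P]) ?_ 3) (by positivity)) (by positivity)
      rw [HuaSquares.scale, logOne, ← hl]
      linarith
  refine (mul_le_mul_of_nonneg_left (mul_le_mul_of_nonneg_left hq4 (Nat.cast_nonneg M))
    (by positivity)).trans ?_
  calc (C * ((P : ℝ) / l ^ (A + 7))) ^ 4 * (M * (l ^ 4 * (3 * (P : ℝ) ^ 2 * (8 * l) ^ 3)))
      = C ^ 4 * 1536 * ((M : ℝ) * ((P : ℝ) ^ 6 * (l ^ 7 / l ^ (4 * (A + 7))))) := by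
        rw [mul_comm 4 (A + 7), pow_mul l (A + 7) 4]
        ring
    _ ≤ _ := by
        refine mul_le_mul_of_nonneg_left (mul_le_mul_of_nonneg_left ?_ (Nat.cast_nonneg M))
          (by positivity)
        rw [← mul_one_div ((P : ℝ) ^ 6) (l ^ A)]
        refine mul_le_mul_of_nonneg_left ?_ (by positivity)
        rw [div_le_div_iff₀ (by positivity) (by positivity), one_mul, ← pow_add]
        exact pow_le_pow_right₀ hl1 (by omega)

/-- **One point of an arc.** -/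
theorem exists_major_point (K J E : ℕ) : ∃ C L₀ : ℝ, 0 < C ∧
    ∀ X : ℕ, 1 ≤ X → L₀ ≤ Real.log (rootFloor 2 X) →
      ∀ z ∈ arcCentres ⌊Real.log (rootFloor 2 X) ^ K⌋₊, ∀ t : ℝ,
        nearDist (t - centre z) ≤ Real.log (rootFloor 2 X) ^ J / X →
          ‖powTwist 2 t Λ (rootFloor 2 X) ^ 4 - fourModel X z t‖ ≤
            C * ((rootFloor 2 X : ℝ) ^ 4 / Real.log (rootFloor 2 X) ^ E) := by
  obtain ⟨C, hC, hmaj⟩ := WaringGoldbach.exists_pow_major (show 1 ≤ 2 by norm_num) K (E + J)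
  obtain ⟨K₀, hK₀, hpow⟩ := exists_log_pow_le (E + J)
  refine ⟨4 * 6 ^ 3 * (9 * (C + 2 * K₀)), 1, by positivity, fun X hX hL z hz t ht => ?_⟩
  obtain ⟨hP1, hPX, hXP, hX4⟩ := squareRootFacts hX
  obtain ⟨P, hP⟩ : ∃ P, P = rootFloor 2 X := ⟨_, rfl⟩
  rw [← hP] at hP1 hPX hXP hX4 hL hz ht ⊢
  obtain ⟨l, hl⟩ : ∃ l, l = Real.log P := ⟨_, rfl⟩
  rw [← hl] at hL hz ht ⊢
  have hl0 : 0 < l := by linarith
  have hP2 : 2 ≤ P := by
    by_contra h
    rw [show P = 1 by omega] at hl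
    simp at hl
    linarith
  have hPr : (1 : ℝ) ≤ P := by exact_mod_cast hP1
  have hX0 : (0 : ℝ) < X := Nat.cast_pos.2 hX
  obtain ⟨q, r⟩ := z
  obtain ⟨⟨hq, hqQ⟩, -, -⟩ := mem_arcCentres.1 hz
  simp only at hq hqQ
  have : NeZero q := ⟨by omega⟩
  have hqR : (q : ℝ) ≤ l ^ K := (Nat.cast_le.2 hqQ).trans (Nat.floor_le (by positivity))
  rw [nearDist] at ht
  obtain ⟨j, hj⟩ : ∃ j, j = round (t - centre ⟨q, r⟩) := ⟨_, rfl⟩
  obtain ⟨β, hβ⟩ : ∃ β, β = t - centre ⟨q, r⟩ - j := ⟨_, rfl⟩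
  rw [← hj, ← hβ] at ht
  have hα : powTwist 2 t Λ P = powTwist 2 (((r : ℤ) : ℝ) / (q : ℝ) + β) Λ P := by
    refine sum_congr rfl fun x _ => congrArg _ ?_
    rw [← eAdd_add_intCast _ (-(j * (x : ℤ) ^ 2)), hβ, centre]
    push_cast
    ring_nf
  have happ := hmaj X P q (r : ℤ) β hP2 hPX hXP (hl ▸ hqR)
  rw [← hα, ← hl] at happ
  have e : weightSum (1 / ((2 : ℕ) : ℝ)) X (t - centre ⟨q, r⟩) =
      weightSum (1 / ((2 : ℕ) : ℝ)) X β := by
    rw [hβ, WaringAsymptotic.weightSum_sub_intCast]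
  rw [fourModel, e, ← mul_pow]
  have hS : ‖powTwist 2 t Λ P‖ ≤ 6 * P :=
    WaringGoldbach.norm_powTwist_le (fun _ => vonMangoldt_nonneg) (fun _ => le_rfl) _ P
  have hV : ‖unitFactor 2 q (r : ℤ) * weightSum (1 / ((2 : ℕ) : ℝ)) X β‖ ≤ 6 * P := by
    rw [norm_mul]
    refine (mul_le_of_le_one_left (norm_nonneg _)
      (WaringGoldbach.norm_unitFactor_le_one _ _ _)).trans
        ((WaringAsymptotic.norm_weightSum_le (by norm_num) (by norm_num) X β).trans ?_)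
    rw [one_div, Real.rpow_inv_le_iff_of_pos (Nat.cast_nonneg _) (by positivity) (by norm_num),
      Real.rpow_natCast, mul_pow]
    nlinarith [pow_nonneg (show (0 : ℝ) ≤ P by linarith) 2]
  refine (WaringAsymptotic.norm_pow_sub_pow_le hS hV 3).trans ?_
  have h1 : 1 + 2 * π * |β| * X ≤ 9 * l ^ J := by
    have hβX : |β| * X ≤ l ^ J := by rwa [← le_div_iff₀ hX0]
    have := mul_le_mul_of_nonneg_left hβX (show (0 : ℝ) ≤ 2 * π by positivity)
    have := mul_le_mul_of_nonneg_right Real.pi_le_four (show (0 : ℝ) ≤ l ^ J by positivity)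
    have : 1 ≤ l ^ J := one_le_pow₀ hL
    linarith
  have h2 : 1 ≤ K₀ * ((P : ℝ) / l ^ (E + J)) := by
    rw [mul_div_assoc', one_le_div (by positivity)]
    refine (hl ▸ hpow P hPr).trans (mul_le_mul_of_nonneg_left ?_ hK₀.le)
    rw [Real.sqrt_le_left (by linarith)]
    nlinarith
  refine (mul_le_mul_of_nonneg_left (happ.trans (mul_le_mul (add_le_add le_rfl
    (le_mul_of_one_le_right two_pos.le h2)) h1 (by positivity) (by positivity)))
    (by positivity)).trans (le_of_eq ?_)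
  rw [pow_add, mul_pow]
  push_cast
  field_simp

/-- **The model off its arc.** -/
theorem sum_norm_fourModel_off_le {X M : ℕ} [NeZero M] (hX : 1 ≤ X) {δ l : ℝ}
    (hδ : 1 / (X : ℝ) ≤ δ) (hl : 1 ≤ l) (hXM : X ≤ M) (hlog : 1 + Real.log M ≤ 8 * l)
    (z : Σ _ : ℕ, ℕ) :
    ∑ h ∈ (range M).filter (fun h => h ∉ arc M δ z), ‖fourModel X z ((h : ℝ) / M)‖ ^ 2 ≤
      3 ^ 8 * δ⁻¹ ^ 3 * (50 * ((M : ℝ) * l)) := by
  have hX0 : (0 : ℝ) < X := Nat.cast_pos.2 hX
  have hδ0 : 0 < δ := lt_of_lt_of_le (by positivity) hδ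
  obtain ⟨Z, hZ⟩ : ∃ Z, Z = 1 / (2 * δ) := ⟨_, rfl⟩
  have hZ0 : 0 < Z := by rw [hZ]; positivity
  refine (sum_le_sum (g := fun h : ℕ => 3 ^ 8 * δ⁻¹ ^ 3 *
    (2 * clip Z ((h : ℝ) / M - centre z))) fun h hh => ?_).trans ?_
  · rw [mem_filter, arc, mem_filter, not_and, not_le] at hh
    have hd := hh.2 hh.1
    obtain ⟨d, hd'⟩ : ∃ d, d = nearDist ((h : ℝ) / M - centre z) := ⟨_, rfl⟩
    rw [← hd'] at hd
    have hd0 : 0 < d := hδ0.trans hd
    have h1 := WaringAsymptotic.norm_weightSum_le_inv (c := 1 / ((2 : ℕ) : ℝ)) (by norm_num)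
      (by norm_num) X (hd' ▸ hd0)
    rw [← hd'] at h1
    have hclip : 2 * clip Z ((h : ℝ) / M - centre z) = d⁻¹ := by
      rw [clip, ← hd', if_neg hd0.ne', min_eq_right
        (hZ ▸ one_div_le_one_div_of_le (by positivity) (by linarith))]
      field_simp
    rw [fourModel, norm_mul, mul_pow, hclip]
    refine (mul_le_of_le_one_left (sq_nonneg _) (pow_le_one₀ (norm_nonneg _) ?_)).trans ?_
    · rw [norm_pow]
      exact pow_le_one₀ (norm_nonneg _) (WaringGoldbach.norm_unitFactor_le_one _ _ _)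
    rw [norm_pow, ← pow_mul]
    refine (pow_le_pow_left₀ (norm_nonneg _) h1 _).trans ?_
    obtain ⟨u, hu⟩ : ∃ u : ℝ, u = d⁻¹ ^ (1 / 2 : ℝ) := ⟨_, rfl⟩
    have e1 : d ^ (-(1 / ((2 : ℕ) : ℝ))) = u := by
      rw [hu, Real.rpow_neg hd0.le, Real.inv_rpow hd0.le]
      norm_num
    have e2 : u ^ 2 = d⁻¹ := by
      rw [hu, ← Real.rpow_natCast, ← Real.rpow_mul (by positivity)]
      norm_num
    rw [e1, mul_pow, show u ^ (4 * 2) = (u ^ 2) ^ 3 * u ^ 2 by ring, e2,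
      mul_assoc (3 ^ 8 : ℝ)]
    refine mul_le_mul_of_nonneg_left (mul_le_mul_of_nonneg_right ?_ (by positivity)) (by norm_num)
    exact pow_le_pow_left₀ (by positivity) (inv_anti₀ hδ0 hd.le) 3
  rw [← mul_sum, ← mul_sum]
  refine mul_le_mul_of_nonneg_left ((mul_le_mul_of_nonneg_left
    ((sum_le_sum_of_subset_of_nonneg (filter_subset _ _) fun i _ _ => clip_nonneg hZ0.le _).trans
      (sum_clip_grid_le (centre z) hZ0.le)) two_pos.le).trans ?_) (by positivity)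
  have h1 : Z ≤ (M : ℝ) := by
    rw [hZ, div_le_iff₀ (by positivity)]
    rw [div_le_iff₀ hX0] at hδ
    have := mul_le_mul_of_nonneg_right (Nat.cast_le.2 hXM : (X : ℝ) ≤ M) hδ0.le
    linarith
  have h2 := mul_le_mul_of_nonneg_left hlog (show 0 ≤ 2 * (M : ℝ) by positivity)
  have h3 := mul_le_mul_of_nonneg_left hl (Nat.cast_nonneg (α := ℝ) M)
  linarith

/-- **The mean square of the deviation.** -/
theorem exists_deviation_le (A : ℕ) : ∃ (K X₀ : ℕ) (C : ℝ), A ≤ K ∧ 1 ≤ K ∧ 0 < C ∧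
    ∀ X : ℕ, X₀ ≤ X →
    1 ≤ Real.log (rootFloor 2 X) ∧
      ∑ N ∈ Icc 1 X, fourDeviation ⌊Real.log (rootFloor 2 X) ^ K⌋₊ N ^ 2 ≤
        C * ((rootFloor 2 X : ℝ) ^ 6 / Real.log (rootFloor 2 X) ^ A) := by
  classical
  obtain ⟨K₁, C₁, L₁, hK1, hC₁, hminor⟩ := exists_minor_part A
  obtain ⟨K, hK⟩ : ∃ K, K = K₁ + A := ⟨_, rfl⟩
  obtain ⟨J, hJ⟩ : ∃ J, J = 2 * K + A + 1 := ⟨_, rfl⟩
  obtain ⟨E, hE⟩ : ∃ E, E = 2 * J + K + A + 1 := ⟨_, rfl⟩
  obtain ⟨C₂, L₂, hC₂, hmajor⟩ := exists_major_point K J E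
  obtain ⟨K₀, hK₀, hpow⟩ := exists_log_pow_le (2 * K + J)
  obtain ⟨T, hT⟩ : ∃ T : ℕ, T = max ⌈Real.exp (max 5 (max L₁ L₂))⌉₊ ⌈(2 * K₀ + 1) ^ 2⌉₊ :=
    ⟨_, rfl⟩
  refine ⟨K, (T + 1) ^ 2, 2 * (C₁ + 200 * C₂ ^ 2) + 2 * (3 ^ 8 * 64 * 50), by omega, by omega,
    by positivity, fun X hX => ?_⟩
  have hX1 : 1 ≤ X := le_trans (Nat.one_le_pow _ _ (by omega)) hX
  obtain ⟨hP1, hPX, hXP, hX4⟩ := squareRootFacts hX1
  obtain ⟨P, hP⟩ : ∃ P, P = rootFloor 2 X := ⟨_, rfl⟩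
  rw [← hP] at hP1 hPX hXP hX4 ⊢
  have hTP : T + 1 ≤ P := by
    by_contra h
    have := Nat.pow_le_pow_left (show P + 1 ≤ T + 1 by omega) 2
    omega
  obtain ⟨l, hl⟩ : ∃ l, l = Real.log P := ⟨_, rfl⟩
  rw [← hl]
  have hPr : (1 : ℝ) ≤ P := by exact_mod_cast hP1
  have hlge : max 5 (max L₁ L₂) ≤ l := by
    rw [hl, Real.le_log_iff_exp_le (by linarith)]
    refine (Nat.le_ceil _).trans (Nat.cast_le.2 (le_trans ?_ hTP))
    rw [hT]
    exact le_trans (le_max_left _ _) (Nat.le_succ _)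
  simp only [max_le_iff] at hlge
  have hl1 : 1 ≤ l := by linarith
  refine ⟨hl1, ?_⟩
  have hl0 : 0 < l := by linarith
  have hsP : √(P : ℝ) ≤ P := by
    rw [Real.sqrt_le_left (by linarith)]
    nlinarith
  have hsPK : 2 * K₀ + 1 ≤ √(P : ℝ) := by
    refine Real.le_sqrt_of_sq_le ((Nat.le_ceil _).trans (Nat.cast_le.2 (le_trans ?_ hTP)))
    rw [hT]
    exact le_trans (le_max_right _ _) (Nat.le_succ _)
  have hX0 : (0 : ℝ) < X := Nat.cast_pos.2 hX1
  have hPXr : (P : ℝ) ^ 2 ≤ X := by exact_mod_cast hPX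
  have hlX : l ^ (2 * K + J) * 2 < X := by
    calc l ^ (2 * K + J) * 2 ≤ K₀ * √(P : ℝ) * 2 :=
          mul_le_mul_of_nonneg_right (hl ▸ hpow P hPr) two_pos.le
      _ < √(P : ℝ) * √(P : ℝ) := by
          have : 0 < √(P : ℝ) := Real.sqrt_pos.2 (by linarith)
          nlinarith
      _ = P := Real.mul_self_sqrt (by linarith)
      _ ≤ X := le_trans (le_self_pow₀ hPr (by norm_num)) hPXr
  have hlKX : l ^ K ≤ X := by
    have := pow_le_pow_right₀ hl1 (show K ≤ 2 * K + J by omega)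
    have := pow_nonneg hl0.le (2 * K + J)
    linarith
  have hlK₁X : l ^ K₁ ≤ X := (pow_le_pow_right₀ hl1 (by omega)).trans hlKX
  obtain ⟨Q, hQ⟩ : ∃ Q, Q = ⌊l ^ K⌋₊ := ⟨_, rfl⟩
  have hlQ : 1 ≤ l ^ K := one_le_pow₀ hl1
  have hQl : (Q : ℝ) ≤ l ^ K := hQ ▸ Nat.floor_le (by linarith)
  rw [← hQ]
  obtain ⟨M, hM⟩ : ∃ M, M = 4 * X := ⟨_, rfl⟩
  have : NeZero M := ⟨by omega⟩
  have hMr : (M : ℝ) = 4 * X := by rw [hM]; push_cast; ring
  have hM0 : (0 : ℝ) < M := by rw [hMr]; positivity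
  obtain ⟨δ, hδ⟩ : ∃ δ, δ = l ^ J / (X : ℝ) := ⟨_, rfl⟩
  have hδ0 : 0 < δ := by rw [hδ]; positivity
  have hlogM : 1 + Real.log M ≤ 8 * l := by
    have h1 := Real.log_le_log hM0 (show (M : ℝ) ≤ 2 ^ 4 * (P : ℝ) ^ 2 by linarith)
    rw [Real.log_mul (by norm_num) (by positivity), Real.log_pow, Real.log_pow, ← hl] at h1
    push_cast at h1
    linarith [Real.log_two_lt_d9]
  obtain ⟨D, hD⟩ : ∃ D, D = (M : ℝ) * ((P : ℝ) ^ 6 / l ^ A) := ⟨_, rfl⟩
  refine le_of_mul_le_mul_left ((sum_deviation_le hX1 hM).trans ?_) hM0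
  obtain ⟨F, hF⟩ : ∃ F : ℕ → ℂ, F = fun h : ℕ => powTwist 2 ((h : ℝ) / M) Λ P ^ 4 -
      ∑ z ∈ (arcCentres Q).filter (fun z => h ∈ arc M δ z), fourModel X z ((h : ℝ) / M) :=
    ⟨_, rfl⟩
  have hrem : ∀ h : ℕ, fourRemainder X Q ((h : ℝ) / M) =
      F h - ∑ z ∈ (arcCentres Q).filter (fun z => h ∉ arc M δ z), fourModel X z ((h : ℝ) / M) :=
    fun h => by
      rw [fourRemainder, ← sum_filter_add_sum_filter_not (arcCentres Q) (fun z => h ∈ arc M δ z),
        hF, ← hP, sub_sub]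
  have huniq : ∀ h z u, z ∈ arcCentres Q → u ∈ arcCentres Q → h ∈ arc M δ z → h ∈ arc M δ u →
      z = u := by
    intro x z u hz hu hx hx'
    by_contra hne
    rw [arc, mem_filter] at hx hx'
    have h1 := inv_mul_le_nearDist_centre hz hu hne
    have h2 := nearDist_sub_sub_le (centre z) (centre u) ((x : ℝ) / M)
    have hQ0 : (0 : ℝ) < Q := by
      rw [hQ, Nat.cast_pos, Nat.floor_pos]
      exact hlQ
    have h3 : 2 * δ < 1 / ((Q : ℝ) * Q) := by
      rw [hδ, mul_div_assoc', div_lt_div_iff₀ hX0 (by positivity), one_mul]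
      calc 2 * l ^ J * ((Q : ℝ) * Q) ≤ 2 * (l ^ J * (l ^ K * l ^ K)) := by
            rw [mul_assoc]
            gcongr
        _ = l ^ (2 * K + J) * 2 := by ring
        _ < X := hlX
    linarith
  have hA : ∑ h ∈ range M, ‖F h‖ ^ 2 ≤ (C₁ + 200 * C₂ ^ 2) * D := by
    rw [← sum_filter_add_sum_filter_not (range M) (fun h => ∀ z ∈ arcCentres Q, h ∉ arc M δ z),
      add_mul]
    refine add_le_add ?_ ?_
    · refine le_trans (le_of_eq (sum_congr rfl fun h hh => ?_)) ((hminor X M hX1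
        (hP ▸ hl ▸ hlge.2.1) (hP ▸ hl ▸ hlK₁X) (by omega) _ (filter_subset _ _)
        fun h hh z hz => ?_).trans (le_of_eq ?_))
      · rw [mem_filter] at hh
        rw [hF, ← hP]
        simp only
        rw [filter_eq_empty_iff.2 fun z hz => hh.2 z hz, sum_empty, sub_zero]
      · rw [mem_filter] at hh
        rw [← hP, ← hl] at hz
        obtain ⟨⟨hz1, hz2⟩, hz3⟩ := mem_arcCentres.1 hz
        have hz' : z ∈ arcCentres Q := mem_arcCentres.2 ⟨⟨hz1, hz2.trans (hQ ▸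
          Nat.floor_le_floor (pow_le_pow_right₀ hl1 (by omega)))⟩, hz3⟩
        have h1 := hh.2 z hz'
        simp only [arc, mem_filter, not_and, not_le] at h1
        rw [← hP, ← hl]
        refine lt_of_le_of_lt ?_ (h1 hh.1)
        rw [hδ]
        exact div_le_div_of_nonneg_right (pow_le_pow_right₀ hl1 (by omega)) hX0.le
      · rw [hD, ← hP, ← hl]
    · obtain ⟨Y, hY⟩ : ∃ Y, Y = C₂ * ((P : ℝ) ^ 4 / l ^ E) := ⟨_, rfl⟩
      refine (sum_le_card_nsmul _ _ (Y ^ 2) fun h hh => ?_).trans ?_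
      · rw [mem_filter] at hh
        push Not at hh
        obtain ⟨z, hz, hhz⟩ := hh.2
        rw [hF]
        simp only
        rw [show (arcCentres Q).filter (fun z => h ∈ arc M δ z) = {z} from
          eq_singleton_iff_unique_mem.2 ⟨mem_filter.2 ⟨hz, hhz⟩, fun u hu =>
            huniq h u z (mem_filter.1 hu).1 hz (mem_filter.1 hu).2 hhz⟩, sum_singleton]
        refine pow_le_pow_left₀ (norm_nonneg _) ?_ 2
        rw [arc, mem_filter] at hhz
        have := hmajor X hX1 (hP ▸ hl ▸ hlge.2.2) z (by rw [← hP, ← hl, ← hQ]; exact hz)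
          ((h : ℝ) / M) (by rw [← hP, ← hl, ← hδ]; exact hhz.2)
        rwa [← hP, ← hl, ← hY] at this
      rw [nsmul_eq_mul]
      have hcard : (((range M).filter fun h => ¬∀ z ∈ arcCentres Q, h ∉ arc M δ z).card : ℝ) ≤
          200 * (l ^ (2 * K) * (l ^ J * l)) := by
        refine (Nat.cast_le.2 ((card_le_card fun h hh => ?_).trans card_biUnion_le :
          ((range M).filter fun h => ¬∀ z ∈ arcCentres Q, h ∉ arc M δ z).card ≤
            ∑ z ∈ arcCentres Q, (arc M δ z).card)).trans ?_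
        · rw [mem_filter] at hh
          push Not at hh
          exact mem_biUnion.2 hh.2
        push_cast
        refine (sum_le_card_nsmul _ _ (200 * (l ^ J * l)) fun z _ => ?_).trans ?_
        · refine (card_arc_le hδ0 z).trans ?_
          have hMd : 4 * (M : ℝ) * δ = 16 * l ^ J := by
            rw [hMr, hδ]; field_simp; ring
          rw [hMd]
          have := mul_le_mul_of_nonneg_left hlogM (show 0 ≤ 16 * l ^ J by positivity)
          have : 1 ≤ l ^ J * l := one_le_mul_of_one_le_of_one_le (one_le_pow₀ hl1) hl1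
          linarith
        · rw [nsmul_eq_mul]
          exact (mul_le_mul_of_nonneg_right ((FourCubes.card_arcCentres_le Q).trans
            (pow_le_pow_left₀ (Nat.cast_nonneg _) hQl 2)) (by positivity)).trans
              (le_of_eq (by ring))
      refine (mul_le_mul_of_nonneg_right hcard (sq_nonneg Y)).trans ?_
      calc 200 * (l ^ (2 * K) * (l ^ J * l)) * Y ^ 2
          = 200 * C₂ ^ 2 * ((P : ℝ) ^ 2 * (P : ℝ) ^ 6 * (l ^ (2 * K + J + 1) / l ^ (2 * E))) := by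
            rw [hY]
            field_simp
            ring
        _ ≤ 200 * C₂ ^ 2 * ((M : ℝ) * (P : ℝ) ^ 6 * (1 / l ^ A)) := by
            refine mul_le_mul_of_nonneg_left (mul_le_mul (mul_le_mul_of_nonneg_right ?_
              (by positivity)) ?_ (by positivity) (by positivity)) (by positivity)
            · rw [hMr]; linarith
            · rw [div_le_div_iff₀ (by positivity) (by positivity), one_mul, ← pow_add]
              exact pow_le_pow_right₀ hl1 (by omega)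
        _ = _ := by rw [hD]; ring
  have hB : ∑ h ∈ range M,
      ‖∑ z ∈ (arcCentres Q).filter (fun z => h ∉ arc M δ z), fourModel X z ((h : ℝ) / M)‖ ^ 2 ≤
      3 ^ 8 * 64 * 50 * D := by
    have h1 : ∀ h : ℕ, ‖∑ z ∈ (arcCentres Q).filter (fun z => h ∉ arc M δ z),
        fourModel X z ((h : ℝ) / M)‖ ^ 2 ≤ l ^ (2 * K) * ∑ z ∈ arcCentres Q,
          if h ∉ arc M δ z then ‖fourModel X z ((h : ℝ) / M)‖ ^ 2 else 0 := by
      intro h
      refine (pow_le_pow_left₀ (norm_nonneg _) (norm_sum_le _ _) 2).trans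
        (sq_sum_le_card_mul_sum_sq.trans ?_)
      rw [← sum_filter]
      refine mul_le_mul ((Nat.cast_le.2 (card_le_card (filter_subset _ _))).trans
        ((FourCubes.card_arcCentres_le Q).trans ?_)) le_rfl
        (sum_nonneg fun _ _ => sq_nonneg _) (by positivity)
      rw [mul_comm 2 K, pow_mul]
      exact pow_le_pow_left₀ (Nat.cast_nonneg _) hQl 2
    refine (sum_le_sum fun h _ => h1 h).trans ?_
    rw [← mul_sum, sum_comm]
    have hδbd : δ⁻¹ ^ 3 ≤ 64 * (P : ℝ) ^ 6 / l ^ (3 * J) := by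
      rw [hδ, inv_div, div_pow, ← pow_mul, mul_comm J 3]
      refine div_le_div_of_nonneg_right ((pow_le_pow_left₀ hX0.le hX4 3).trans (le_of_eq ?_))
        (by positivity)
      ring
    have hoff : ∀ z ∈ arcCentres Q, (∑ h ∈ range M,
        if h ∉ arc M δ z then ‖fourModel X z ((h : ℝ) / M)‖ ^ 2 else 0) ≤
          3 ^ 8 * (64 * (P : ℝ) ^ 6 / l ^ (3 * J)) * (50 * ((M : ℝ) * l)) := by
      intro z _
      rw [← sum_filter]
      refine (sum_norm_fourModel_off_le hX1 ?_ hl1 (by omega) hlogM z).trans ?_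
      · rw [hδ]
        exact div_le_div_of_nonneg_right (one_le_pow₀ hl1) hX0.le
      · exact mul_le_mul_of_nonneg_right (mul_le_mul_of_nonneg_left hδbd (by norm_num))
          (by positivity)
    refine (mul_le_mul_of_nonneg_left ((sum_le_card_nsmul _ _ _ hoff).trans (le_of_eq_of_le
      (nsmul_eq_mul _ _) (mul_le_mul_of_nonneg_right ((FourCubes.card_arcCentres_le Q).trans
        (pow_le_pow_left₀ (Nat.cast_nonneg _) hQl 2)) (by positivity)))) (by positivity)).trans ?_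
    calc l ^ (2 * K) * ((l ^ K) ^ 2 * (3 ^ 8 * (64 * (P : ℝ) ^ 6 / l ^ (3 * J)) *
          (50 * ((M : ℝ) * l))))
        = 3 ^ 8 * 64 * 50 * ((M : ℝ) * ((P : ℝ) ^ 6 * (l ^ (4 * K + 1) / l ^ (3 * J)))) := by
          ring
      _ ≤ _ := by
          rw [hD, ← mul_one_div ((P : ℝ) ^ 6) (l ^ A)]
          refine mul_le_mul_of_nonneg_left (mul_le_mul_of_nonneg_left (mul_le_mul_of_nonneg_left ?_
            (by positivity)) hM0.le) (by norm_num)
          rw [div_le_div_iff₀ (by positivity) (by positivity), one_mul, ← pow_add]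
          exact pow_le_pow_right₀ hl1 (by omega)
  simp only [hrem]
  refine (sum_le_sum fun h _ => (pow_le_pow_left₀ (norm_nonneg _) (norm_sub_le _ _) 2).trans
    add_sq_le).trans ?_
  rw [← mul_sum, sum_add_distrib]
  refine (mul_le_mul_of_nonneg_left (add_le_add hA hB) zero_le_two).trans (le_of_eq ?_)
  rw [hD]
  ring

end FA.FourPrimeSquares
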