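import Fermat.Agent.FourPrimeSquares.Main
import Fermat.Agent.HuaThreeSquares.Density

/-!
# Necessity, and the densities

The square of a prime above `3` is `1` modulo `24`, so the sums of four such squares are `4` modulo
`24` and have density `1/24`. If one of four primes is `2` or `3` what remains is a sum of three
squares of primes, which have density `1/30`, so the sums of four squares of primes have density
`1/24 + 2/30 = 13/120`.
-/

set_option autoImplicit false

noncomputable section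

namespace FA.FourPrimeSquares

open Finset Filter Topology
open FA.HuaThreeSquares (IsAdmissible IsThreePrimeSquares card_admissible_bounds
  tendsto_three_prime_squares_density)

/-- `N` is a sum of four squares of primes above `3`. -/
def IsFourBigPrimeSquares (N : ℕ) : Prop :=
  ∃ z : Fin 4 → ℕ, (∀ i, (z i).Prime ∧ 3 < z i) ∧ ∑ i, z i ^ 2 = N

/-- `N` is a sum of four squares of primes. -/
def IsFourPrimeSquares (N : ℕ) : Prop :=
  ∃ p q r s : ℕ, p.Prime ∧ q.Prime ∧ r.Prime ∧ s.Prime ∧ p ^ 2 + q ^ 2 + r ^ 2 + s ^ 2 = N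

theorem sq_mod_of_prime_gt {p : ℕ} (hp : p.Prime) (h3 : 3 < p) : p ^ 2 % 24 = 1 := by
  have hd : ∀ d : ℕ, 2 ≤ d → d ≤ 3 → p % d ≠ 0 := fun d hd2 hd3 h => by
    rcases hp.eq_one_or_self_of_dvd d (Nat.dvd_of_mod_eq_zero h) with e | e <;> omega
  have h2 := hd 2 le_rfl (by norm_num)
  have h3' := hd 3 (by norm_num) le_rfl
  have a24 : p % 24 < 24 := Nat.mod_lt _ (by norm_num)
  rw [Nat.pow_mod]
  interval_cases h : p % 24 <;> first | rfl | (exfalso; omega)

/-- **The congruence is necessary.** -/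
theorem mod_eq_of_four_prime_squares {N : ℕ} (h : IsFourBigPrimeSquares N) : N % 24 = 4 := by
  obtain ⟨z, hz, rfl⟩ := h
  simp [Fin.sum_univ_four, Nat.add_mod, sq_mod_of_prime_gt (hz _).1 (hz _).2]

theorem isFourPrimeSquares_of_big {N : ℕ} (h : IsFourBigPrimeSquares N) : IsFourPrimeSquares N := by
  obtain ⟨z, hz, rfl⟩ := h
  exact ⟨z 0, z 1, z 2, z 3, (hz 0).1, (hz 1).1, (hz 2).1, (hz 3).1,
    (Fin.sum_univ_four fun i => z i ^ 2).symm⟩

theorem three_prime_squares_pos {n : ℕ} (h : IsThreePrimeSquares n) : 0 < n := by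
  obtain ⟨p, q, r, hp, -, -, rfl⟩ := h
  have := pow_pos hp.pos 2
  omega

/-- **Either four primes above `3`, or one more square after `4` or `9`.** -/
theorem four_prime_squares_cases {N : ℕ} (h : IsFourPrimeSquares N) :
    IsFourBigPrimeSquares N ∨ (4 ≤ N ∧ IsThreePrimeSquares (N - 4)) ∨
      (9 ≤ N ∧ IsThreePrimeSquares (N - 9)) := by
  obtain ⟨p, q, r, s, hp, hq, hr, hs, rfl⟩ := h
  have key : ∀ a b c d : ℕ, a.Prime → b.Prime → c.Prime → d.Prime → a ≤ 3 →
      p ^ 2 + q ^ 2 + r ^ 2 + s ^ 2 = a ^ 2 + (b ^ 2 + c ^ 2 + d ^ 2) →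
      IsFourBigPrimeSquares (p ^ 2 + q ^ 2 + r ^ 2 + s ^ 2) ∨
      (4 ≤ p ^ 2 + q ^ 2 + r ^ 2 + s ^ 2 ∧
        IsThreePrimeSquares (p ^ 2 + q ^ 2 + r ^ 2 + s ^ 2 - 4)) ∨
      (9 ≤ p ^ 2 + q ^ 2 + r ^ 2 + s ^ 2 ∧
        IsThreePrimeSquares (p ^ 2 + q ^ 2 + r ^ 2 + s ^ 2 - 9)) := by
    intro a b c d ha hb hc hd ha3 e
    rcases (show a = 2 ∨ a = 3 by have := ha.two_le; omega) with rfl | rfl
    · exact Or.inr (Or.inl ⟨by omega, b, c, d, hb, hc, hd, by omega⟩)
    · exact Or.inr (Or.inr ⟨by omega, b, c, d, hb, hc, hd, by omega⟩)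
  rcases le_or_gt p 3 with hp3 | hp3
  · exact key p q r s hp hq hr hs hp3 (by ring)
  rcases le_or_gt q 3 with hq3 | hq3
  · exact key q p r s hq hp hr hs hq3 (by ring)
  rcases le_or_gt r 3 with hr3 | hr3
  · exact key r p q s hr hp hq hs hr3 (by ring)
  rcases le_or_gt s 3 with hs3 | hs3
  · exact key s p q r hs hp hq hr hs3 (by ring)
  refine Or.inl ⟨![p, q, r, s], fun i => ?_, by simp [Fin.sum_univ_four]⟩
  fin_cases i
  exacts [⟨hp, hp3⟩, ⟨hq, hq3⟩, ⟨hr, hr3⟩, ⟨hs, hs3⟩]

open Classical in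
/-- The exceptions are `o (X)`. -/
theorem eventually_exceptions_le {ε : ℝ} (hε : 0 < ε) : ∀ᶠ X : ℕ in atTop,
    (((Ioc 0 X).filter fun N => N % 24 = 4 ∧ ¬IsFourBigPrimeSquares N).card : ℝ) ≤ ε * X := by
  obtain ⟨c, hc, h⟩ := exists_few_representations
  obtain ⟨C, hC, hex⟩ := h 1
  filter_upwards [eventually_ge_atTop 2,
    (Real.tendsto_log_atTop.comp tendsto_natCast_atTop_atTop).eventually_ge_atTop (C / ε)]
    with X hX hl
  simp only [Function.comp_apply] at hl
  have hL0 : 0 < Real.log X := Real.log_pos (Nat.one_lt_cast.2 (by omega))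
  refine (le_trans (Nat.cast_le.2 (card_le_card fun N hN => ?_)) (hex X hX)).trans ?_
  · rw [mem_filter, mem_Ioc] at hN
    rw [mem_filter, mem_Icc]
    refine ⟨⟨hN.1.1, hN.1.2⟩, hN.2.1, ?_⟩
    rw [card_eq_zero.2 (filter_eq_empty_iff.2 fun z _ h => hN.2.2 ⟨z, h.1, h.2⟩), Nat.cast_zero,
      zero_mul]
    exact mul_pos hc (Nat.cast_pos.2 hN.1.1)
  · rw [pow_one, mul_div_assoc', div_le_iff₀ hL0]
    rw [div_le_iff₀ hε] at hl
    have := mul_le_mul_of_nonneg_right hl (Nat.cast_nonneg (α := ℝ) X)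
    linarith

/-- The numbers `4` modulo `24` up to `X`. -/
theorem card_class_bounds (X : ℕ) :
    X / 24 ≤ ((Ioc 0 X).filter fun N => N % 24 = 4).card ∧
      ((Ioc 0 X).filter fun N => N % 24 = 4).card ≤ X / 24 + 1 := by
  refine ⟨le_trans (le_of_eq (card_range _).symm) (card_le_card_of_injOn (fun i => 24 * i + 4)
    (fun i hi => ?_) fun a _ b _ h => by simp only at h; omega),
    (card_le_card_of_injOn (fun N => N / 24) (fun N hN => ?_) fun a ha b hb h => ?_).trans
      (card_range _).le⟩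
  · simp only [mem_coe, mem_range, mem_filter, mem_Ioc] at *
    omega
  · simp only [mem_coe, mem_range, mem_filter, mem_Ioc] at *
    omega
  · simp only [mem_coe, mem_filter] at ha hb
    simp only at h
    omega

open Classical in
/-- A shifted count. -/
theorem card_three_shift_le (a X : ℕ) :
    ((Ioc 0 X).filter fun N => a ≤ N ∧ IsThreePrimeSquares (N - a)).card ≤
      ((Ioc 0 X).filter IsThreePrimeSquares).card :=
  card_le_card_of_injOn (fun N => N - a) (fun N hN => by
    simp only [mem_coe, mem_filter, mem_Ioc] at *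
    exact ⟨⟨three_prime_squares_pos hN.2.2, by omega⟩, hN.2.2⟩) fun x hx y hy h => by
    simp only [mem_coe, mem_filter] at hx hy
    simp only at h
    omega

open Classical in
/-- **The sums of four squares of primes above `3` have density `1/24`.** -/
theorem tendsto_four_big_prime_squares_density : Tendsto (fun X : ℕ =>
    (((Ioc 0 X).filter IsFourBigPrimeSquares).card : ℝ) / X) atTop (𝓝 (1 / 24)) := by
  rw [Metric.tendsto_nhds]
  intro ε hε
  filter_upwards [eventually_exceptions_le (show 0 < ε / 4 by positivity), eventually_ge_atTop 1,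
    tendsto_natCast_atTop_atTop.eventually_ge_atTop (4 / ε)] with X h1 hX hXε
  have hX0 : (0 : ℝ) < X := Nat.cast_pos.2 hX
  obtain ⟨R, hR⟩ : ∃ R : Finset ℕ, R = (Ioc 0 X).filter IsFourBigPrimeSquares := ⟨_, rfl⟩
  obtain ⟨E, hE⟩ : ∃ E : Finset ℕ,
    E = (Ioc 0 X).filter fun N => N % 24 = 4 ∧ ¬IsFourBigPrimeSquares N := ⟨_, rfl⟩
  rw [← hR]
  rw [← hE] at h1
  obtain ⟨hlo, hhi⟩ := card_class_bounds X
  have hRA : R.card ≤ X / 24 + 1 := (card_le_card (hR ▸ monotone_filter_right _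
    fun N _ => mod_eq_of_four_prime_squares)).trans hhi
  have hAR : X / 24 ≤ R.card + E.card := by
    refine hlo.trans ((card_le_card fun N hN => ?_).trans (card_union_le R E))
    rw [mem_filter] at hN
    rw [mem_union, hR, hE, mem_filter, mem_filter]
    by_cases h : IsFourBigPrimeSquares N
    · exact Or.inl ⟨hN.1, h⟩
    · exact Or.inr ⟨hN.1, hN.2, h⟩
  have hlo' : (X : ℝ) ≤ 24 * (R.card : ℝ) + 24 * (E.card : ℝ) + 24 := by
    exact_mod_cast (show X ≤ 24 * R.card + 24 * E.card + 24 by omega)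
  have hhi' : 24 * (R.card : ℝ) ≤ X + 24 := by
    exact_mod_cast (show 24 * R.card ≤ X + 24 by omega)
  rw [div_le_iff₀ hε] at hXε
  rw [Real.dist_eq, abs_lt, lt_sub_iff_add_lt, sub_lt_iff_lt_add, lt_div_iff₀ hX0,
    div_lt_iff₀ hX0]
  constructor <;> nlinarith

open Classical in
/-- **The sums of four squares of primes have density `13/120`.** -/
theorem tendsto_four_prime_squares_density : Tendsto (fun X : ℕ =>
    (((Ioc 0 X).filter IsFourPrimeSquares).card : ℝ) / X) atTop (𝓝 (13 / 120)) := by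
  rw [Metric.tendsto_nhds]
  intro ε hε
  filter_upwards [eventually_exceptions_le (show 0 < ε / 8 by positivity),
    HuaThreeSquares.eventually_exceptions_le (show 0 < ε / 8 by positivity),
    Metric.tendsto_nhds.1 tendsto_three_prime_squares_density (ε / 8) (by positivity),
    eventually_ge_atTop 1,
    tendsto_natCast_atTop_atTop.eventually_ge_atTop (80 / ε)] with X h4 h3 hT hX hXε
  have hX0 : (0 : ℝ) < X := Nat.cast_pos.2 hX
  obtain ⟨R, hR⟩ : ∃ R : Finset ℕ, R = (Ioc 0 X).filter IsFourPrimeSquares := ⟨_, rfl⟩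
  obtain ⟨T, hT'⟩ : ∃ T : Finset ℕ, T = (Ioc 0 X).filter IsThreePrimeSquares := ⟨_, rfl⟩
  obtain ⟨E, hE⟩ : ∃ E : Finset ℕ,
    E = (Ioc 0 X).filter fun N => N % 24 = 4 ∧ ¬IsFourBigPrimeSquares N := ⟨_, rfl⟩
  obtain ⟨E', hE'⟩ : ∃ E' : Finset ℕ,
    E' = (Ioc 0 X).filter fun N => IsAdmissible N ∧ ¬IsThreePrimeSquares N := ⟨_, rfl⟩
  rw [← hR]
  rw [← hT'] at hT
  rw [← hE] at h4
  rw [← hE'] at h3
  obtain ⟨hlo, hhi⟩ := card_class_bounds X
  have hupper : R.card ≤ X / 24 + 1 + (T.card + T.card) := by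
    refine (card_le_card (t := (Ioc 0 X).filter (fun N => N % 24 = 4) ∪
      ((Ioc 0 X).filter (fun N => 4 ≤ N ∧ IsThreePrimeSquares (N - 4)) ∪
        (Ioc 0 X).filter (fun N => 9 ≤ N ∧ IsThreePrimeSquares (N - 9)))) fun N hN => ?_).trans
      ((card_union_le _ _).trans (add_le_add hhi ((card_union_le _ _).trans (add_le_add
        (hT' ▸ card_three_shift_le 4 X) (hT' ▸ card_three_shift_le 9 X)))))
    rw [hR, mem_filter] at hN
    simp only [mem_union, mem_filter, hN.1, true_and]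
    rcases four_prime_squares_cases hN.2 with h | h | h
    exacts [Or.inl (mod_eq_of_four_prime_squares h), Or.inr (Or.inl h), Or.inr (Or.inr h)]
  obtain ⟨A, hA⟩ : ∃ A : ℕ → Finset ℕ, A = fun a =>
    ((Ioc 0 (X - a)).filter fun n => IsAdmissible n ∧ IsThreePrimeSquares n).image (· + a) :=
      ⟨_, rfl⟩
  have hAcard : ∀ a, a ≤ 9 → 4 * ((X - 9) / 120) ≤ (A a).card + E'.card := by
    intro a ha
    rw [hA, card_image_of_injective _ (add_left_injective a)]
    refine le_trans ?_ (add_le_add le_rfl (card_le_card (s := (Ioc 0 (X - a)).filter fun n =>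
      IsAdmissible n ∧ ¬IsThreePrimeSquares n) (hE' ▸ filter_subset_filter _
        (Ioc_subset_Ioc_right (Nat.sub_le _ _)))))
    rw [← filter_filter, ← filter_filter, card_filter_add_card_filter_not]
    exact le_trans (Nat.mul_le_mul_left 4 (Nat.div_le_div_right (by omega)))
      (card_admissible_bounds (X - a)).1
  have hAsub : ∀ a ∈ ({2, 3} : Finset ℕ), ∀ N ∈ A (a ^ 2),
      N ∈ R ∧ N % 24 = (3 + a ^ 2) % 24 := by
    intro a ha N hN
    simp only [hA, mem_image, mem_filter, mem_Ioc] at hN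
    obtain ⟨n, ⟨hn, hadm, p, q, r, hp, hq, hr, hpqr⟩, rfl⟩ := hN
    have ha' : a.Prime := by
      rw [mem_insert, mem_singleton] at ha
      rcases ha with rfl | rfl <;> norm_num
    refine ⟨?_, by rw [Nat.add_mod, hadm.1]; omega⟩
    rw [hR, mem_filter, mem_Ioc]
    exact ⟨⟨by omega, by omega⟩, p, q, r, a, hp, hq, hr, ha', by omega⟩
  have hlower : X / 24 + (4 * ((X - 9) / 120) + 4 * ((X - 9) / 120)) ≤
      R.card + (E.card + (E'.card + E'.card)) := by
    obtain ⟨F, hF⟩ : ∃ F : Finset ℕ,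
      F = (Ioc 0 X).filter fun N => N % 24 = 4 ∧ IsFourBigPrimeSquares N := ⟨_, rfl⟩
    have hd1 : Disjoint (A (2 ^ 2)) (A (3 ^ 2)) := disjoint_left.2 fun N hN hN' => by
      have := (hAsub 2 (by simp) N hN).2
      have := (hAsub 3 (by simp) N hN').2
      omega
    have hd2 : Disjoint F (A (2 ^ 2) ∪ A (3 ^ 2)) := disjoint_left.2 fun N hN hN' => by
      rw [hF, mem_filter] at hN
      have := hN.2.1
      rcases mem_union.1 hN' with h | h
      · have := (hAsub 2 (by simp) N h).2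
        omega
      · have := (hAsub 3 (by simp) N h).2
        omega
    have hle : F.card + ((A (2 ^ 2)).card + (A (3 ^ 2)).card) ≤ R.card := by
      rw [← card_union_of_disjoint hd1, ← card_union_of_disjoint hd2]
      refine card_le_card fun N hN => ?_
      rcases mem_union.1 hN with h | h
      · rw [hF, mem_filter] at h
        rw [hR, mem_filter]
        exact ⟨h.1, isFourPrimeSquares_of_big h.2.2⟩
      · rcases mem_union.1 h with h | h
        exacts [(hAsub 2 (by simp) N h).1, (hAsub 3 (by simp) N h).1]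
    have h24 : X / 24 ≤ F.card + E.card := by
      refine hlo.trans (le_of_eq ?_)
      rw [hF, hE, ← filter_filter, ← filter_filter, card_filter_add_card_filter_not]
    have := hAcard (2 ^ 2) (by norm_num)
    have := hAcard (3 ^ 2) (by norm_num)
    omega
  have hup' : 24 * (R.card : ℝ) ≤ X + 24 + 48 * (T.card : ℝ) := by
    exact_mod_cast (show 24 * R.card ≤ X + 24 + 48 * T.card by omega)
  have hlo' : 13 * (X : ℝ) ≤
      120 * ((R.card : ℝ) + ((E.card : ℝ) + 2 * (E'.card : ℝ))) + 1200 := by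
    exact_mod_cast (show 13 * X ≤ 120 * (R.card + (E.card + 2 * E'.card)) + 1200 by omega)
  rw [div_le_iff₀ hε] at hXε
  rw [Real.dist_eq, abs_lt, lt_sub_iff_add_lt, sub_lt_iff_lt_add, lt_div_iff₀ hX0,
    div_lt_iff₀ hX0] at hT
  rw [Real.dist_eq, abs_lt, lt_sub_iff_add_lt, sub_lt_iff_lt_add, lt_div_iff₀ hX0,
    div_lt_iff₀ hX0]
  constructor <;> nlinarith

end FA.FourPrimeSquares
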