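import Fermat.Agent.FourPrimeSquares.Circle
import Fermat.Agent.ThreePrimes.Main

/-!
# Almost all `N ≡ 4 (mod 24)` are sums of four squares of primes

On average over `N ≤ X` the weighted number of representations by primes above `3` differs from
`𝔖 (N) π ^ 2 / 16 * N` by `O (X / (log X) ^ A)`, since the singular series is near its partial sums
on average; so the number is the expected one outside a set of `O (X / (log X) ^ A)` numbers.
-/

set_option autoImplicit false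

noncomputable section

namespace FA.FourPrimeSquares

open Finset ArithmeticFunction Filter Topology
open FA.WaringGoldbach (primeRep primeTerm primeSeries)
open FA.ThreePrimes (powerPart sum_powerPart_le sum_vonMangoldt_le)
open FA.WaringAsymptotic (rootFloor weightConv)
open scoped Real

/-- **The singular integral.** -/
theorem abs_fourConv_sub_le (N : ℕ) :
    |weightConv (1 / ((2 : ℕ) : ℝ)) 4 N - π ^ 2 / 16 * N| ≤ 3 * (π ^ 2 / 16) := by
  rcases Nat.lt_or_ge N 4 with h | h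
  · rw [WaringAsymptotic.weightConv_of_lt h, zero_sub, abs_neg,
      abs_of_nonneg (by positivity), mul_comm 3]
    exact mul_le_mul_of_nonneg_left (by exact_mod_cast (show N ≤ 3 by omega)) (by positivity)
  have hn : WaringAsymptotic.negBinom 2 (N - 4) = (N : ℝ) - 3 := by
    have h1 := WaringAsymptotic.sum_negBinom 1 (N - 4)
    simp only [WaringAsymptotic.negBinom_one, sum_const, card_range, nsmul_eq_mul, mul_one] at h1
    rw [show (1 : ℝ) + 1 = 2 by norm_num, Nat.cast_succ, Nat.cast_sub h] at h1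
    rw [← h1]
    push_cast
    ring
  have hG : Real.Gamma (1 + 1 / ((2 : ℕ) : ℝ)) ^ 4 = π ^ 2 / 16 := by
    rw [show (1 : ℝ) + 1 / ((2 : ℕ) : ℝ) = 1 / 2 + 1 by norm_num,
      Real.Gamma_add_one (by norm_num), Real.Gamma_one_half_eq, mul_pow,
      show √π ^ 4 = (√π ^ 2) ^ 2 by ring, Real.sq_sqrt Real.pi_pos.le]
    ring
  rw [WaringAsymptotic.weightConv_eq (by norm_num) h, hG,
    show ((4 : ℕ) : ℝ) * (1 / ((2 : ℕ) : ℝ)) = 2 by norm_num, hn, ← mul_sub, abs_mul,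
    abs_of_nonneg (show (0 : ℝ) ≤ π ^ 2 / 16 by positivity), show (N : ℝ) - 3 - N = -3 by ring]
  norm_num
  linarith

/-- `Λ` on the primes above `3`. -/
def bigPrimes (n : ℕ) : ℝ := if n.Prime ∧ 3 < n then Λ n else 0

theorem bigPrimes_nonneg (n : ℕ) : 0 ≤ bigPrimes n := by
  unfold bigPrimes
  split_ifs
  exacts [vonMangoldt_nonneg, le_rfl]

theorem bigPrimes_le (n : ℕ) : bigPrimes n ≤ Λ n := by
  unfold bigPrimes
  split_ifs
  exacts [le_rfl, vonMangoldt_nonneg]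

theorem primeRep_bigPrimes_le (N : ℕ) : primeRep 2 4 bigPrimes N ≤ primeRep 2 4 Λ N :=
  sum_le_sum fun _ _ => prod_le_prod (fun _ _ => bigPrimes_nonneg _) fun _ _ => bigPrimes_le _

/-- The representations that use a prime power or a prime `≤ 3`. -/
theorem sum_primeRep_sub_big_le {X P : ℕ} (hP : P = rootFloor 2 X) (hX : 1 ≤ X)
    (hl : 1 ≤ Real.log P) :
    ∑ N ∈ Icc 1 X, (primeRep 2 4 Λ N - primeRep 2 4 bigPrimes N) ≤
      4 * (6 * (P : ℝ)) ^ 3 * (50 * (√(P : ℝ) * Real.log P)) := by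
  classical
  obtain ⟨f, hf⟩ : ∃ f : (Fin 4 → ℕ) → ℝ,
      f = fun z => ∏ i, Λ (z i) - ∏ i, bigPrimes (z i) := ⟨_, rfl⟩
  have hf0 : ∀ z, 0 ≤ f z := fun z => by
    rw [hf]
    exact sub_nonneg.2 (prod_le_prod (fun i _ => bigPrimes_nonneg _) fun i _ => bigPrimes_le _)
  obtain ⟨hP1, -, hXP, -⟩ := squareRootFacts hX
  rw [← hP] at hP1 hXP
  obtain ⟨B, hB⟩ : ∃ B, B = Fintype.piFinset fun _ : Fin 4 => Icc 1 P := ⟨_, rfl⟩
  have h1 : ∑ N ∈ Icc 1 X, (primeRep 2 4 Λ N - primeRep 2 4 bigPrimes N) ≤ ∑ z ∈ B, f z := by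
    refine le_trans (le_of_eq (sum_congr rfl fun N hN => ?_))
      ((sum_fiberwise_le_sum_of_sum_fiber_nonneg (g := fun z => ∑ i, z i ^ 2)
        (t := Icc 1 X) (s := B) (f := f) fun N _ => sum_nonneg fun z _ => hf0 z))
    rw [primeRep, primeRep, ← sum_sub_distrib, hf, hB]
    refine sum_congr (ext fun z => ?_) fun _ _ => rfl
    simp only [mem_filter, Fintype.mem_piFinset, mem_Icc]
    rw [mem_Icc] at hN
    refine ⟨fun h => ⟨fun i => ⟨(h.1 i).1, ?_⟩, h.2⟩, fun h => ⟨fun i => ⟨(h.1 i).1, ?_⟩, h.2⟩⟩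
    · by_contra hlt
      have h3 := Nat.pow_le_pow_left (show P + 1 ≤ z i by omega) 2
      have h4 := single_le_sum (f := fun j => z j ^ 2) (fun j _ => Nat.zero_le _) (mem_univ i)
      have h5 := h.2
      omega
    · have h4 := single_le_sum (f := fun j => z j ^ 2) (fun j _ => Nat.zero_le _) (mem_univ i)
      exact (Nat.le_self_pow (by omega) _).trans (h4.trans h.2.le)
  refine h1.trans ?_
  rw [hf, sum_sub_distrib, hB, sum_prod_piFinset, sum_prod_piFinset,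
    prod_const, prod_const, card_univ, Fintype.card_fin]
  obtain ⟨a, ha⟩ : ∃ a, a = ∑ m ∈ Icc 1 P, Λ m := ⟨_, rfl⟩
  obtain ⟨b, hb⟩ : ∃ b, b = ∑ m ∈ Icc 1 P, bigPrimes m := ⟨_, rfl⟩
  rw [← ha, ← hb]
  have hb0 : 0 ≤ b := hb ▸ sum_nonneg fun m _ => bigPrimes_nonneg m
  have hba : b ≤ a := hb ▸ ha ▸ sum_le_sum fun m _ => bigPrimes_le m
  have ha6 : a ≤ 6 * (P : ℝ) := ha ▸ (sum_vonMangoldt_le P : _)
  have hPr : (1 : ℝ) ≤ √(P : ℝ) := Real.one_le_sqrt.2 (by exact_mod_cast hP1)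
  have hab : a - b ≤ 50 * (√(P : ℝ) * Real.log P) := by
    have h3 : a - b ≤ ∑ m ∈ Icc 1 P, (powerPart m + if m ≤ 3 then Λ m else 0) := by
      rw [ha, hb, ← sum_sub_distrib]
      refine sum_le_sum fun m _ => ?_
      have hΛ : 0 ≤ Λ m := vonMangoldt_nonneg
      unfold bigPrimes powerPart
      split_ifs <;> first | linarith | (exfalso; simp_all; try omega)
    refine h3.trans ?_
    rw [sum_add_distrib, ← sum_filter]
    have h4 : ∑ m ∈ (Icc 1 P).filter (fun m => m ≤ 3), Λ m ≤ 42 := by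
      refine (sum_le_sum_of_subset_of_nonneg (t := Ioc 0 3) (fun m hm => ?_)
        fun m _ _ => vonMangoldt_nonneg).trans ((sum_vonMangoldt_le 3).trans (by norm_num))
      simp only [mem_filter, mem_Icc, mem_Ioc] at hm ⊢
      omega
    have h5 : 1 ≤ √(P : ℝ) * Real.log P := one_le_mul_of_one_le_of_one_le hPr hl
    have h6 := sum_powerPart_le hP1
    linarith
  refine (le_abs_self _).trans ((abs_pow_sub_pow_le a b 4).trans ?_)
  rw [abs_of_nonneg (sub_nonneg.2 hba), abs_of_nonneg (hb0.trans hba),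
    abs_of_nonneg hb0, max_eq_left hba, mul_comm (a - b), mul_right_comm]
  exact mul_le_mul (mul_le_mul_of_nonneg_left (pow_le_pow_left₀ (hb0.trans hba) ha6 3)
    (Nat.cast_nonneg _)) hab (sub_nonneg.2 hba) (by positivity)

/-- The main term. -/
def fourMain (N : ℕ) : ℝ := primeSeries 2 4 N * (π ^ 2 / 16) * N

/-- One number: the deviation, the series tail and the prime powers. -/
theorem abs_big_sub_main_le (Q N : ℕ) :
    |primeRep 2 4 bigPrimes N - fourMain N| ≤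
      (primeRep 2 4 Λ N - primeRep 2 4 bigPrimes N) + fourDeviation Q N +
        3 * (π ^ 2 / 16) * ‖∑ q ∈ Icc 1 Q, primeTerm 2 4 N q‖ +
        π ^ 2 / 16 * N * |primeSeries 2 4 N - (∑ q ∈ Icc 1 Q, primeTerm 2 4 N q).re| := by
  obtain ⟨U, hU⟩ : ∃ U, U = ∑ q ∈ Icc 1 Q, primeTerm 2 4 N q := ⟨_, rfl⟩
  obtain ⟨J, hJ⟩ : ∃ J, J = weightConv (1 / ((2 : ℕ) : ℝ)) 4 N := ⟨_, rfl⟩
  obtain ⟨G, hG⟩ : ∃ G : ℝ, G = π ^ 2 / 16 := ⟨_, rfl⟩
  have hG0 : 0 ≤ G := by rw [hG]; positivity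
  have h1 : |primeRep 2 4 Λ N - J * U.re| ≤ fourDeviation Q N := by
    rw [fourDeviation, ← hJ, ← hU]
    refine le_trans (le_of_eq ?_) (Complex.abs_re_le_norm _)
    simp
  have h2 : |(J - G * N) * U.re| ≤ 3 * G * ‖U‖ := by
    rw [abs_mul]
    exact mul_le_mul (hJ ▸ hG ▸ abs_fourConv_sub_le N) (Complex.abs_re_le_norm _) (abs_nonneg _)
      (by positivity)
  have h3 : |G * N * (U.re - primeSeries 2 4 N)| = G * N * |primeSeries 2 4 N - U.re| := by
    rw [abs_mul, abs_sub_comm, abs_of_nonneg (by positivity : (0 : ℝ) ≤ G * N)]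
  rw [← hU, fourMain, ← hG]
  have e : primeRep 2 4 bigPrimes N - primeSeries 2 4 N * G * N =
      -(primeRep 2 4 Λ N - primeRep 2 4 bigPrimes N) + (primeRep 2 4 Λ N - J * U.re) +
        (J - G * N) * U.re + G * N * (U.re - primeSeries 2 4 N) := by ring
  rw [e, ← h3]
  refine ((abs_add_le _ _).trans (add_le_add ((abs_add_le _ _).trans
    (add_le_add (abs_add_le _ _) le_rfl)) le_rfl)).trans ?_
  rw [abs_neg, abs_of_nonneg (sub_nonneg.2 (primeRep_bigPrimes_le N))]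
  linarith

/-- **The asymptotic formula on average.** -/
theorem exists_mean_deviation (A : ℕ) : ∃ C : ℝ, 0 < C ∧ ∀ X : ℕ, 2 ≤ X →
    ∑ N ∈ Icc 1 X, |primeRep 2 4 bigPrimes N - fourMain N| ≤
      C * ((X : ℝ) ^ 2 / Real.log X ^ A) := by
  obtain ⟨K, X₁, C₁, hAK, hK, hC₁, hsq⟩ := exists_deviation_le (2 * A)
  obtain ⟨C₂, hC₂, htail⟩ := exists_mean_tail
  obtain ⟨K₀, hK₀, hpow⟩ := ThreePrimes.exists_log_pow_le (A + 1)
  obtain ⟨G, hG⟩ : ∃ G : ℝ, G = π ^ 2 / 16 := ⟨_, rfl⟩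
  have hG0 : 0 < G := by rw [hG]; positivity
  obtain ⟨T, hT⟩ : ∃ T : ℕ, T = max X₁ 5 := ⟨_, rfl⟩
  obtain ⟨W, hW⟩ : ∃ W : ℝ, W = (∑ N ∈ Icc 1 T, |primeRep 2 4 bigPrimes N - fourMain N|) *
    Real.log T ^ A := ⟨_, rfl⟩
  have hW0 : 0 ≤ W := hW ▸ mul_nonneg (sum_nonneg fun N _ => abs_nonneg _)
    (pow_nonneg (Real.log_natCast_nonneg _) A)
  obtain ⟨c, hc⟩ : ∃ c : ℝ, c = 4 * 6 ^ 3 * 50 * K₀ + √C₁ + 3 * G * C₂ * K₀ + G * C₂ := ⟨_, rfl⟩
  have hc0 : 0 < c := by rw [hc]; positivity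
  refine ⟨c * 6 ^ A + W, by positivity, fun X hX => ?_⟩
  obtain ⟨L, hL⟩ : ∃ L, L = Real.log X := ⟨_, rfl⟩
  have hX0 : (0 : ℝ) < X := Nat.cast_pos.2 (by omega)
  have hL0 : 0 < L := hL ▸ Real.log_pos (Nat.one_lt_cast.2 (by omega))
  rw [← hL]
  rcases Nat.lt_or_ge X T with hsmall | hbig
  · refine le_trans ?_ (mul_le_mul_of_nonneg_right (show W ≤ c * 6 ^ A + W from
      le_add_of_nonneg_left (by positivity)) (by positivity))
    rw [mul_div_assoc', le_div_iff₀ (by positivity), hW]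
    refine le_trans ?_ (le_mul_of_one_le_right (hW ▸ hW0)
      (one_le_pow₀ (by exact_mod_cast (show 1 ≤ X by omega))))
    refine mul_le_mul ?_ (pow_le_pow_left₀ hL0.le
      (hL ▸ Real.log_le_log hX0 (Nat.cast_le.2 hsmall.le)) A) (by positivity)
      (sum_nonneg fun N _ => abs_nonneg _)
    exact sum_le_sum_of_subset_of_nonneg (Icc_subset_Icc le_rfl hsmall.le)
      fun N _ _ => abs_nonneg _
  rw [hT] at hbig
  simp only [max_le_iff] at hbig
  have hX1 : 1 ≤ X := by omega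
  obtain ⟨hl1, hsq'⟩ := hsq X hbig.1
  obtain ⟨hP1, hPX, hXP, hX4⟩ := squareRootFacts hX1
  obtain ⟨P, hP⟩ : ∃ P, P = rootFloor 2 X := ⟨_, rfl⟩
  have hPsum := sum_primeRep_sub_big_le hP hX1
  rw [← hP] at hl1 hsq' hP1 hPX hXP hX4
  obtain ⟨l, hl⟩ : ∃ l, l = Real.log P := ⟨_, rfl⟩
  rw [← hl] at hl1 hsq' hPsum
  have hl0 : 0 < l := by linarith
  have hPr : (1 : ℝ) ≤ P := by exact_mod_cast hP1
  have hLl : L ≤ 6 * l := by
    have h1 := Real.log_le_log hX0 hX4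
    rw [Real.log_mul (by norm_num) (by positivity), Real.log_pow, ← hl, ← hL,
      show (4 : ℝ) = 2 ^ 2 by norm_num, Real.log_pow] at h1
    push_cast at h1
    linarith [Real.log_two_lt_d9]
  obtain ⟨Q, hQ⟩ : ∃ Q, Q = ⌊l ^ K⌋₊ := ⟨_, rfl⟩
  rw [← hQ] at hsq'
  obtain ⟨D, hD⟩ : ∃ D : ℝ, D = (X : ℝ) ^ 2 / l ^ A := ⟨_, rfl⟩
  have hD0 : 0 ≤ D := by rw [hD]; positivity
  have hP2X : (P : ℝ) ^ 2 ≤ X := by exact_mod_cast hPX
  have hlA : l ^ (A + 1) ≤ K₀ * √(P : ℝ) := hl ▸ hpow P hPr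
  have hP4 : (P : ℝ) ^ 4 ≤ (X : ℝ) ^ 2 := by
    rw [show (P : ℝ) ^ 4 = ((P : ℝ) ^ 2) ^ 2 by ring]
    exact pow_le_pow_left₀ (by positivity) hP2X 2
  have hsP : √(P : ℝ) ≤ P := by
    rw [Real.sqrt_le_left (by linarith)]
    nlinarith
  have s1 : ∑ N ∈ Icc 1 X, (primeRep 2 4 Λ N - primeRep 2 4 bigPrimes N) ≤
      4 * 6 ^ 3 * 50 * K₀ * D := by
    refine (hPsum hl1).trans ?_
    calc 4 * (6 * (P : ℝ)) ^ 3 * (50 * (√(P : ℝ) * l))
        = 4 * 6 ^ 3 * 50 * ((P : ℝ) ^ 3 * √(P : ℝ) * l ^ (A + 1) / l ^ A) := by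
          rw [pow_succ l A]
          field_simp
      _ ≤ 4 * 6 ^ 3 * 50 * ((P : ℝ) ^ 3 * √(P : ℝ) * (K₀ * √(P : ℝ)) / l ^ A) := by gcongr
      _ = 4 * 6 ^ 3 * 50 * K₀ * ((P : ℝ) ^ 4 / l ^ A) := by
          rw [show (P : ℝ) ^ 3 * √(P : ℝ) * (K₀ * √(P : ℝ)) =
            (P : ℝ) ^ 3 * K₀ * (√(P : ℝ) * √(P : ℝ)) by ring, Real.mul_self_sqrt (by linarith)]
          ring
      _ ≤ _ := by
          rw [hD]
          gcongr
  have s2 : ∑ N ∈ Icc 1 X, fourDeviation Q N ≤ √C₁ * D := by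
    refine le_of_pow_le_pow_left₀ two_ne_zero (by positivity) ?_
    refine sq_sum_le_card_mul_sum_sq.trans ?_
    rw [Nat.card_Icc, Nat.add_sub_cancel, mul_pow, Real.sq_sqrt hC₁.le, hD, div_pow, ← pow_mul l,
      mul_comm A 2]
    refine (mul_le_mul_of_nonneg_left hsq' hX0.le).trans ?_
    rw [mul_left_comm, mul_div_assoc', show ((X : ℝ) ^ 2) ^ 2 = X * (X : ℝ) ^ 3 by ring]
    refine mul_le_mul_of_nonneg_left (div_le_div_of_nonneg_right (mul_le_mul_of_nonneg_left ?_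
      hX0.le) (by positivity)) hC₁.le
    rw [show (P : ℝ) ^ 6 = ((P : ℝ) ^ 2) ^ 3 by ring]
    exact pow_le_pow_left₀ (by positivity) hP2X 3
  obtain ⟨ht1, ht2⟩ := htail X Q
  have s3 : ∑ N ∈ Icc 1 X, 3 * G * ‖∑ q ∈ Icc 1 Q, primeTerm 2 4 N q‖ ≤
      3 * G * C₂ * K₀ * D := by
    rw [← mul_sum]
    refine (mul_le_mul_of_nonneg_left ht2 (by positivity)).trans ?_
    rw [show 3 * G * C₂ * K₀ * D = 3 * G * (C₂ * (K₀ * D)) by ring]
    refine mul_le_mul_of_nonneg_left (mul_le_mul_of_nonneg_left ?_ hC₂.le) (by positivity)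
    rw [hD, mul_div_assoc', le_div_iff₀ (by positivity), show K₀ * (X : ℝ) ^ 2 = X * (K₀ * X) by
      ring]
    refine mul_le_mul_of_nonneg_left ?_ hX0.le
    refine ((pow_le_pow_right₀ hl1 (Nat.le_succ A)).trans hlA).trans
      (mul_le_mul_of_nonneg_left ?_ hK₀.le)
    exact hsP.trans ((le_self_pow₀ hPr two_ne_zero).trans hP2X)
  have s4 : ∑ N ∈ Icc 1 X, G * N *
      |primeSeries 2 4 N - (∑ q ∈ Icc 1 Q, primeTerm 2 4 N q).re| ≤ G * C₂ * D := by
    refine (sum_le_sum fun N hN => mul_le_mul_of_nonneg_right (mul_le_mul_of_nonneg_left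
      (Nat.cast_le.2 (mem_Icc.1 hN).2) hG0.le) (abs_nonneg _)).trans ?_
    rw [← mul_sum]
    refine (mul_le_mul_of_nonneg_left ht1 (by positivity)).trans ?_
    rw [hD, show G * X * (C₂ * X * ((Q + 1 : ℕ) : ℝ) ^ (-(1 / 2) : ℝ)) =
      G * C₂ * ((X : ℝ) ^ 2 * ((Q + 1 : ℕ) : ℝ) ^ (-(1 / 2) : ℝ)) by ring,
      div_eq_mul_inv ((X : ℝ) ^ 2)]
    refine mul_le_mul_of_nonneg_left (mul_le_mul_of_nonneg_left ?_ (by positivity)) (by positivity)
    have h1 : l ^ (2 * A) ≤ ((Q + 1 : ℕ) : ℝ) := by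
      refine (pow_le_pow_right₀ hl1 hAK).trans ?_
      rw [hQ]
      push_cast
      exact (Nat.lt_floor_add_one _).le
    refine (Real.rpow_le_rpow_of_nonpos (by positivity) h1 (by norm_num)).trans (le_of_eq ?_)
    rw [← Real.rpow_natCast, ← Real.rpow_mul hl0.le, ← Real.rpow_natCast, ← Real.rpow_neg hl0.le]
    congr 1
    push_cast
    ring
  refine (sum_le_sum fun N _ => abs_big_sub_main_le Q N).trans ?_
  simp only [← hG]
  rw [sum_add_distrib, sum_add_distrib, sum_add_distrib]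
  refine (add_le_add (add_le_add (add_le_add s1 s2) s3) s4).trans ?_
  rw [← add_mul, ← add_mul, ← add_mul, ← hc]
  refine le_trans ?_ (mul_le_mul_of_nonneg_right (show c * 6 ^ A ≤ c * 6 ^ A + W from
    le_add_of_nonneg_right hW0) (by positivity))
  rw [mul_assoc c]
  refine mul_le_mul_of_nonneg_left ?_ hc0.le
  rw [hD, mul_div_assoc', div_le_div_iff₀ (by positivity) (by positivity)]
  calc (X : ℝ) ^ 2 * L ^ A ≤ (X : ℝ) ^ 2 * (6 * l) ^ A :=
        mul_le_mul_of_nonneg_left (pow_le_pow_left₀ hL0.le hLl A) (by positivity)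
    _ = _ := by ring

/-- **The asymptotic formula for almost all `N`.** -/
theorem exists_exceptions (A : ℕ) : ∃ C : ℝ, 0 < C ∧ ∀ X : ℕ, 2 ≤ X →
    (((Icc 1 X).filter fun N : ℕ => (N : ℝ) / Real.log X ^ A <
      |primeRep 2 4 bigPrimes N - fourMain N|).card : ℝ) ≤ C * (X / Real.log X ^ A) := by
  obtain ⟨C, hC, h⟩ := exists_mean_deviation (3 * A)
  refine ⟨C + 1, by positivity, fun X hX => ?_⟩
  obtain ⟨L, hL⟩ : ∃ L, L = Real.log X := ⟨_, rfl⟩
  have hX0 : (0 : ℝ) < X := Nat.cast_pos.2 (by omega)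
  have hL0 : 0 < L := hL ▸ Real.log_pos (Nat.one_lt_cast.2 (by omega))
  have hsum := h X hX
  rw [← hL] at hsum ⊢
  obtain ⟨D, hD⟩ : ∃ D : ℝ, D = X / L ^ A := ⟨_, rfl⟩
  rw [← hD]
  have hD0 : 0 ≤ D := by rw [hD]; positivity
  obtain ⟨V, hV⟩ : ∃ V : ℝ, V = X / L ^ (2 * A) := ⟨_, rfl⟩
  have hV0 : 0 < V := by rw [hV]; positivity
  have hsub : (Icc 1 X).filter (fun N : ℕ => (N : ℝ) / L ^ A <
      |primeRep 2 4 bigPrimes N - fourMain N|) ⊆ Icc 1 ⌊D⌋₊ ∪
      (Icc 1 X).filter (fun N => V ≤ |primeRep 2 4 bigPrimes N - fourMain N|) := by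
    intro N hN
    rw [mem_filter] at hN
    rw [mem_union, mem_filter, mem_Icc]
    by_cases hsm : N ≤ ⌊D⌋₊
    · exact Or.inl ⟨(mem_Icc.1 hN.1).1, hsm⟩
    refine Or.inr ⟨hN.1, le_trans ?_ hN.2.le⟩
    rw [not_le, Nat.floor_lt hD0, hD] at hsm
    rw [hV, pow_mul', sq, ← div_div]
    exact div_le_div_of_nonneg_right hsm.le (by positivity)
  refine (Nat.cast_le.2 ((card_le_card hsub).trans (card_union_le _ _))).trans ?_
  rw [Nat.cast_add, add_mul, one_mul, add_comm (C * D)]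
  refine add_le_add ?_ (le_of_mul_le_mul_right ?_ hV0)
  · rw [Nat.card_Icc, Nat.add_sub_cancel]
    exact Nat.floor_le hD0
  · rw [← nsmul_eq_mul, ← sum_const]
    refine (sum_le_sum fun N hN => (mem_filter.1 hN).2).trans
      ((sum_le_sum_of_subset_of_nonneg (filter_subset _ _) fun N _ _ => abs_nonneg _).trans
        (hsum.trans (le_of_eq ?_)))
    rw [hV, hD, pow_mul' L 3 A, pow_mul' L 2 A]
    field_simp

/-- **Hua's theorem on four squares**: almost all `N ≡ 4 (mod 24)` have the expected number of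
representations by squares of primes above `3`. -/
theorem exists_few_representations : ∃ c : ℝ, 0 < c ∧ ∀ A : ℕ, ∃ C : ℝ, 0 < C ∧ ∀ X : ℕ, 2 ≤ X →
    (((Icc 1 X).filter fun N : ℕ => N % 24 = 4 ∧
      (((Fintype.piFinset fun _ : Fin 4 => Icc 1 N).filter
        fun z => (∀ i, (z i).Prime ∧ 3 < z i) ∧ ∑ i, z i ^ 2 = N).card : ℝ) * Real.log N ^ 4 <
          c * N).card : ℝ) ≤ C * (X / Real.log X ^ A) := by
  classical
  obtain ⟨c₁, hc₁, hser⟩ := exists_series_pos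
  obtain ⟨G, hG⟩ : ∃ G : ℝ, G = π ^ 2 / 16 := ⟨_, rfl⟩
  have hG0 : 0 < G := by rw [hG]; positivity
  refine ⟨c₁ * G / 2, by positivity, fun A => ?_⟩
  obtain ⟨C, hC, h⟩ := exists_exceptions (A + 1)
  have hl2 : 0 < Real.log 2 := Real.log_pos one_lt_two
  obtain ⟨B, hB⟩ : ∃ B : ℝ, B = 2 / (c₁ * G) := ⟨_, rfl⟩
  have hB0 : 0 < B := by rw [hB]; positivity
  refine ⟨(C + B) / Real.log 2, by positivity, fun X hX => ?_⟩
  obtain ⟨L, hL⟩ : ∃ L, L = Real.log X := ⟨_, rfl⟩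
  have hX0 : (0 : ℝ) < X := Nat.cast_pos.2 (by omega)
  have hL2 : Real.log 2 ≤ L := hL ▸ Real.log_le_log two_pos (Nat.ofNat_le_cast.2 hX)
  have hL0 : 0 < L := hl2.trans_le hL2
  obtain ⟨S, hS⟩ : ∃ S : Finset ℕ, S = (Icc 1 X).filter fun N : ℕ => N % 24 = 4 ∧
      (((Fintype.piFinset fun _ : Fin 4 => Icc 1 N).filter
        fun z => (∀ i, (z i).Prime ∧ 3 < z i) ∧ ∑ i, z i ^ 2 = N).card : ℝ) * Real.log N ^ 4 <
          c₁ * G / 2 * N := ⟨_, rfl⟩
  rw [← hS, ← hL]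
  have hDL : (X : ℝ) / L ^ (A + 1) ≤ X / L ^ A / Real.log 2 := by
    rw [pow_succ, ← div_div]
    exact div_le_div_of_nonneg_left (by positivity) hl2 hL2
  suffices hmain : (S.card : ℝ) ≤ (C + B) * (X / L ^ (A + 1)) by
    refine hmain.trans ((mul_le_mul_of_nonneg_left hDL (by positivity)).trans (le_of_eq ?_))
    ring
  have hD0 : 0 ≤ (X : ℝ) / L ^ (A + 1) := by positivity
  rcases le_or_gt (L ^ (A + 1)) B with hsm | hbig
  · refine le_trans ?_ (mul_le_mul_of_nonneg_right (show B ≤ C + B by linarith) hD0)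
    rw [mul_div_assoc', le_div_iff₀ (by positivity), mul_comm B]
    refine mul_le_mul (Nat.cast_le.2 ((card_le_card (hS ▸ filter_subset _ _)).trans ?_)) hsm
      (by positivity) hX0.le
    rw [Nat.card_Icc, Nat.add_sub_cancel]
  refine le_trans ?_ (mul_le_mul_of_nonneg_right (show C ≤ C + B by linarith) hD0)
  refine le_trans (Nat.cast_le.2 (card_le_card fun N hN => ?_)) (hL ▸ h X hX)
  rw [hS, mem_filter] at hN
  rw [mem_filter]
  obtain ⟨hN1, hmod, hlt⟩ := hN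
  refine ⟨hN1, ?_⟩
  have hN0 : (0 : ℝ) < N := Nat.cast_pos.2 (mem_Icc.1 hN1).1
  have hrep : primeRep 2 4 bigPrimes N ≤ (((Fintype.piFinset fun _ : Fin 4 => Icc 1 N).filter
      fun z => (∀ i, (z i).Prime ∧ 3 < z i) ∧ ∑ i, z i ^ 2 = N).card : ℝ) * Real.log N ^ 4 := by
    rw [primeRep, ← nsmul_eq_mul,
      ← sum_filter_add_sum_filter_not _ (fun z => ∀ i, (z i).Prime ∧ 3 < z i), filter_filter]
    have h0 : ∀ z ∈ ((Fintype.piFinset fun _ : Fin 4 => Icc 1 N).filter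
        fun z => ∑ i, z i ^ 2 = N).filter (fun z => ¬ ∀ i, (z i).Prime ∧ 3 < z i),
        ∏ i, bigPrimes (z i) = 0 := fun z hz => by
      obtain ⟨i, hi⟩ := not_forall.1 (mem_filter.1 hz).2
      exact prod_eq_zero (mem_univ i) (if_neg hi)
    rw [sum_eq_zero h0, add_zero]
    simp only [and_comm (a := ∑ i, _ = N)]
    refine sum_le_card_nsmul _ _ _ fun z hz => ?_
    rw [mem_filter, Fintype.mem_piFinset] at hz
    calc ∏ i, bigPrimes (z i) ≤ ∏ _i : Fin 4, Real.log N :=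
          prod_le_prod (fun i _ => bigPrimes_nonneg _) fun i _ =>
            (bigPrimes_le _).trans (vonMangoldt_le_log.trans (Real.log_le_log
              (by exact_mod_cast (mem_Icc.1 (hz.1 i)).1) (Nat.cast_le.2 (mem_Icc.1 (hz.1 i)).2)))
      _ = _ := by simp
  have hmain : c₁ * G * N ≤ fourMain N := by
    rw [hG]
    exact mul_le_mul_of_nonneg_right (mul_le_mul_of_nonneg_right (hser N hmod) (hG ▸ hG0.le))
      hN0.le
  refine lt_of_lt_of_le ?_ (neg_le_abs _)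
  refine lt_of_lt_of_le (div_lt_div_of_pos_left hN0 hB0 hbig) ?_
  rw [hB, div_div_eq_mul_div]
  linarith [show (N : ℝ) * (c₁ * G) / 2 = c₁ * G / 2 * N by ring]

end FA.FourPrimeSquares
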