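import Fermat.Agent.WaringGoldbach.Singular
import Fermat.Agent.HuaThreeSquares.Local
import Fermat.Agent.BurgessComposite.Inequality
import Fermat.Agent.Forms3.RepresentationBound

/-!
# The singular series for four squares of primes

`C_p (a) = (a/p) g - 1`, so `A_p (N)` is `O ((p, N) / p ^ 2)`, and it is nonnegative for `p ∣ N`,
`p ≥ 7`. So the series converges absolutely for every `N ≥ 1`, its tail is `O (Q ^ (-1/2))` on
average over `N`, and it is bounded below for `N ≡ 4 (mod 24)`.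
-/

set_option autoImplicit false

noncomputable section

namespace FA.FourPrimeSquares

open Finset Filter Topology FA.WaringGoldbach
open FA.ThreePrimes (unitResidues card_unitResidues eAdd)
open FA.HuaThreeSquares (legendreC isQuadratic_legendreC sum_units_eq_sub ringChar_zmod_ne_two
  primeSquareSum_prime_eq norm_gaussSum_legendreC norm_legendre_shift_le exists_three_squares)
open FA.HuaSquares (primeSquareSum sum_unitResidues_eq_units)

/-- **The term at a prime.** -/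
theorem exists_fourTerm_prime_eq {p : ℕ} (hp : p.Prime) (hp2 : p ≠ 2) (N : ℕ) :
    ∃ g U : ℂ, ‖g‖ = √(p : ℝ) ∧ (g ^ 2 = p ∨ g ^ 2 = -p) ∧ ‖U‖ ≤ √(p : ℝ) ∧ (p ∣ N → U = 0) ∧
      primeTerm 2 4 N p = ((g ^ 4 + 6 * g ^ 2 + 1) * ((if p ∣ N then (p : ℂ) else 0) - 1) -
        4 * (g ^ 3 + g) * U) / (p.totient : ℂ) ^ 4 := by
  have : Fact p.Prime := ⟨hp⟩
  obtain ⟨g, hg⟩ : ∃ g, g = gaussSum (legendreC p) ZMod.stdAddChar := ⟨_, rfl⟩
  obtain ⟨b, hb⟩ : ∃ b : ZMod p, b = -((N : ℕ) : ZMod p) := ⟨_, rfl⟩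
  have hne : legendreC p ≠ 1 := (MulChar.ringHomComp_ne_one_iff Int.cast_injective).2
    (quadraticChar_ne_one (ringChar_zmod_ne_two hp2))
  have hdvd : b = 0 ↔ p ∣ N := by rw [hb, neg_eq_zero, ZMod.natCast_eq_zero_iff]
  refine ⟨g, ∑ x : ZMod p, legendreC p x * ZMod.stdAddChar (b * x),
    hg ▸ norm_gaussSum_legendreC hp2, ?_, norm_legendre_shift_le hp2 b, fun h => ?_, ?_⟩
  · have h := gaussSum_sq hne (isQuadratic_legendreC p) (ZMod.isPrimitive_stdAddChar p)
    rw [← hg, ZMod.card] at h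
    rcases isQuadratic_legendreC p (-1) with e | e | e
    · exact absurd e ((isUnit_one.neg.map (legendreC p)).ne_zero)
    · exact Or.inl (by rw [h, e, one_mul])
    · exact Or.inr (by rw [h, e, neg_one_mul])
  · simp only [hdvd.2 h, zero_mul, AddChar.map_zero_eq_one, mul_one,
      MulChar.sum_eq_zero_of_ne_one hne]
  · have hψ : (∑ x : ZMod p, ZMod.stdAddChar (b * x) : ℂ) = if p ∣ N then (p : ℂ) else 0 := by
      have h := AddChar.sum_mulShift b (ZMod.isPrimitive_stdAddChar p)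
      simp only [ZMod.card, hdvd, mul_comm _ b] at h
      rw [h]
      split_ifs <;> simp
    rw [← hψ, show (∑ x : ZMod p, ZMod.stdAddChar (b * x) : ℂ) - 1 =
      ∑ u : (ZMod p)ˣ, ZMod.stdAddChar (b * (u : ZMod p)) by
        rw [sum_units_eq_sub fun x => ZMod.stdAddChar (b * x), mul_zero, AddChar.map_zero_eq_one],
      show ∑ x : ZMod p, legendreC p x * ZMod.stdAddChar (b * x) =
        ∑ u : (ZMod p)ˣ, legendreC p (u : ZMod p) * ZMod.stdAddChar (b * (u : ZMod p)) by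
          rw [sum_units_eq_sub fun x => legendreC p x * ZMod.stdAddChar (b * x),
            (legendreC p).map_zero, zero_mul, sub_zero],
      mul_sum, mul_sum, ← sum_sub_distrib, ← sum_unitResidues_eq_units fun x : ZMod p =>
        (g ^ 4 + 6 * g ^ 2 + 1) * ZMod.stdAddChar (b * x) -
          4 * (g ^ 3 + g) * (legendreC p x * ZMod.stdAddChar (b * x)), primeTerm, sum_div]
    refine sum_congr rfl fun r hr => ?_
    have hu : IsUnit (((r : ℕ) : ℤ) : ZMod p) := by
      rw [unitResidues, mem_filter] at hr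
      rw [Int.cast_natCast]
      exact (ZMod.isUnit_iff_coprime r p).2 hr.2.symm
    have hsq : legendreC p (r : ZMod p) ^ 2 = 1 := by
      rw [Int.cast_natCast] at hu
      rw [← MulChar.pow_apply' _ two_ne_zero,
        (isQuadratic_legendreC p).sq_eq_one,
        MulChar.one_apply hu]
    have he : eAdd (-((N : ℝ) * r / p)) = ZMod.stdAddChar (b * (r : ZMod p)) := by
      have h := WaringAsymptotic.eAdd_div_eq_char (q := p) (-((N : ℤ) * r))
      push_cast at h
      rw [hb, neg_mul, ← h, neg_div]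
    rw [primeSummand, unitFactor, show unitSum 2 p (r : ℤ) = primeSquareSum p r from rfl,
      primeSquareSum_prime_eq hp2 hu, ← hg, he, Int.cast_natCast, div_pow, div_mul_eq_mul_div]
    congr 1
    linear_combination ((legendreC p (r : ZMod p) ^ 2 + 1) * g ^ 4 -
      4 * legendreC p (r : ZMod p) * g ^ 3 + 6 * g ^ 2) * ZMod.stdAddChar (b * (r : ZMod p)) * hsq

/-- `A_p (N) = O ((p, N) / p²)`, and `A_p (N) ≥ -64/p²`. -/
theorem fourTerm_prime_bounds {p : ℕ} (hp : p.Prime) (hp2 : p ≠ 2) (N : ℕ) :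
    ‖primeTerm 2 4 N p‖ ≤ 64 * (Nat.gcd p N : ℝ) / (p : ℝ) ^ 2 ∧
      (7 ≤ p → -(64 / (p : ℝ) ^ 2) ≤ (primeTerm 2 4 N p).re) := by
  obtain ⟨g, U, hgn, hg2, hU, hU0, hT⟩ := exists_fourTerm_prime_eq hp hp2 N
  have hp3 : (3 : ℝ) ≤ p := by
    have := hp.two_le
    exact_mod_cast (show 3 ≤ p by omega)
  have hs := Real.mul_self_sqrt (show (0 : ℝ) ≤ p by linarith)
  have hφ : (p.totient : ℝ) = (p : ℝ) - 1 := by
    rw [Nat.totient_prime hp, Nat.cast_sub hp.one_le, Nat.cast_one]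
  have hden : 16 * (p : ℝ) ^ 4 / 81 ≤ (p.totient : ℝ) ^ 4 := by
    rw [hφ, show 16 * (p : ℝ) ^ 4 / 81 = (2 * p / 3) ^ 4 by ring]
    exact pow_le_pow_left₀ (by positivity) (by linarith) 4
  have hden0 : (0 : ℝ) < (p.totient : ℝ) ^ 4 := lt_of_lt_of_le (by positivity) hden
  have hA : ‖g ^ 4 + 6 * g ^ 2 + 1‖ ≤ 4 * (p : ℝ) ^ 2 := by
    refine (norm_add₃_le).trans ?_
    rw [norm_mul, norm_pow, norm_pow, hgn, Complex.norm_ofNat, norm_one,
      show √(p : ℝ) ^ 4 = (√(p : ℝ) * √(p : ℝ)) ^ 2 by ring, hs, sq (√(p : ℝ)), hs]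
    nlinarith
  have key : ∀ X : ℝ, ‖(g ^ 4 + 6 * g ^ 2 + 1) * ((if p ∣ N then (p : ℂ) else 0) - 1) -
      4 * (g ^ 3 + g) * U‖ ≤ X → ‖primeTerm 2 4 N p‖ ≤ 81 * X / (16 * (p : ℝ) ^ 4) := by
    intro X hX
    have hX0 := (norm_nonneg _).trans hX
    rw [hT, norm_div, norm_pow, Complex.norm_natCast]
    refine (div_le_div₀ hX0 hX (by positivity) hden).trans (le_of_eq ?_)
    field_simp
  by_cases hd : p ∣ N
  · rw [Nat.gcd_eq_left hd]
    refine ⟨(key (4 * (p : ℝ) ^ 2 * p) ?_).trans ?_, fun h7 => ?_⟩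
    · rw [if_pos hd, hU0 hd, mul_zero, sub_zero, norm_mul]
      refine mul_le_mul hA ?_ (norm_nonneg _) (by positivity)
      rw [show (p : ℂ) - 1 = (((p : ℝ) - 1 : ℝ) : ℂ) by push_cast; ring, Complex.norm_real,
        Real.norm_eq_abs, abs_of_nonneg (by linarith)]
      linarith
    · rw [div_le_div_iff₀ (by positivity) (by positivity)]
      nlinarith [pow_pos (show (0 : ℝ) < p by linarith) 5]
    · refine le_trans (neg_nonpos.2 (by positivity)) ?_
      have h7' : (7 : ℝ) ≤ p := by exact_mod_cast h7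
      rw [hT, if_pos hd, hU0 hd, mul_zero, sub_zero, show g ^ 4 = (g ^ 2) ^ 2 by ring]
      rcases hg2 with e | e <;> rw [e]
      · rw [show (((p : ℂ)) ^ 2 + 6 * (p : ℂ) + 1) * ((p : ℂ) - 1) / (p.totient : ℂ) ^ 4 =
          (((((p : ℝ)) ^ 2 + 6 * p + 1) * ((p : ℝ) - 1) / (p.totient : ℝ) ^ 4 : ℝ) : ℂ) by
            push_cast; ring, Complex.ofReal_re]
        exact div_nonneg (mul_nonneg (by positivity) (by linarith)) hden0.le
      · rw [show ((-(p : ℂ)) ^ 2 + 6 * -(p : ℂ) + 1) * ((p : ℂ) - 1) / (p.totient : ℂ) ^ 4 =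
          (((((p : ℝ)) ^ 2 - 6 * p + 1) * ((p : ℝ) - 1) / (p.totient : ℝ) ^ 4 : ℝ) : ℂ) by
            push_cast; ring, Complex.ofReal_re]
        exact div_nonneg (mul_nonneg (by nlinarith) (by linarith)) hden0.le
  · rw [(hp.coprime_iff_not_dvd.2 hd).gcd_eq_one, Nat.cast_one, mul_one]
    have hb : ‖primeTerm 2 4 N p‖ ≤ 64 / (p : ℝ) ^ 2 := by
      refine (key (10 * (p : ℝ) ^ 2) ?_).trans ?_
      · rw [if_neg hd, zero_sub, mul_neg_one]
        refine (norm_sub_le _ _).trans ?_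
        rw [norm_neg, norm_mul, norm_mul, Complex.norm_ofNat]
        have h1 : ‖g ^ 3 + g‖ * ‖U‖ ≤ ((p : ℝ) * √(p : ℝ) + √(p : ℝ)) * √(p : ℝ) := by
          refine mul_le_mul ((norm_add_le _ _).trans (le_of_eq ?_)) hU (norm_nonneg _)
            (by positivity)
          rw [norm_pow, hgn]
          linear_combination √(p : ℝ) * hs
        rw [add_mul, mul_assoc (p : ℝ), hs] at h1
        nlinarith
      · rw [div_le_div_iff₀ (by positivity) (by positivity)]
        nlinarith [pow_pos (show (0 : ℝ) < p by linarith) 4]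
    exact ⟨hb, fun _ => (abs_le.1 ((Complex.abs_re_le_norm _).trans hb)).1⟩

theorem localExp_two_two : localExp 2 2 = 3 := by
  have : Fact (Nat.Prime 2) := ⟨Nat.prime_two⟩
  rw [localExp, padicValNat.self (show 1 < 2 by norm_num), if_pos ⟨rfl, dvd_rfl⟩]

theorem localExp_two_of_ne {p : ℕ} (hp : p.Prime) (h2 : p ≠ 2) : localExp 2 p = 1 :=
  localExp_of_not_dvd fun h => h2 ((Nat.prime_dvd_prime_iff_eq hp Nat.prime_two).1 h)

theorem norm_fourTerm_le (N : ℕ) : ∀ q : ℕ, 0 < q → ‖primeTerm 2 4 N q‖ ≤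
    (512 : ℝ) ^ q.primeFactors.card * ((Nat.gcd q N : ℝ) / (q : ℝ) ^ 2) := by
  intro q
  induction q using Nat.recOnPosPrimePosCoprime with
  | prime_pow p n hp hn =>
    intro h0
    rw [Nat.primeFactors_prime_pow hn.ne' hp, card_singleton, pow_one]
    rcases Nat.lt_or_ge (localExp 2 p) n with h | h
    · rw [primeTerm_primePow_eq_zero (by norm_num) (by norm_num) N hp h, norm_zero]
      positivity
    rcases eq_or_ne p 2 with rfl | h2
    · rw [localExp_two_two] at h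
      refine (norm_primeTerm_le 2 4 N _).trans ((primeAbs_le 2 4 _).trans ?_)
      have h1 : (1 : ℝ) ≤ Nat.gcd (2 ^ n) N := by
        exact_mod_cast Nat.gcd_pos_of_pos_left N (pow_pos two_pos n)
      rw [mul_div_assoc', le_div_iff₀ (by positivity)]
      have h3 : ((2 : ℝ) ^ n) * ((2 : ℝ) ^ n) ^ 2 ≤ 512 := by
        interval_cases n <;> norm_num
      push_cast
      linarith
    · rw [localExp_two_of_ne hp h2] at h
      obtain rfl : n = 1 := by omega
      rw [pow_one]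
      refine (fourTerm_prime_bounds hp h2 N).1.trans ?_
      rw [mul_div_assoc]
      exact mul_le_mul_of_nonneg_right (by norm_num) (by positivity)
  | zero => intro h; omega
  | one => intro _; simp [primeTerm_one]
  | coprime a b ha hb hab iha ihb =>
    intro _
    rw [primeTerm_mul 2 4 N hab, norm_mul, Nat.Coprime.primeFactors_mul hab,
      card_union_of_disjoint hab.disjoint_primeFactors, pow_add, Nat.gcd_comm (a * b),
      Nat.Coprime.gcd_mul _ hab, Nat.cast_mul, Nat.cast_mul, mul_pow, mul_div_mul_comm,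
      mul_mul_mul_comm, Nat.gcd_comm N, Nat.gcd_comm N]
    exact mul_le_mul (iha (by omega)) (ihb (by omega)) (norm_nonneg _) (by positivity)

theorem exists_norm_fourTerm_le : ∃ C : ℝ, 0 < C ∧ ∀ N q : ℕ,
    ‖primeTerm 2 4 N q‖ ≤ C * ((Nat.gcd q N : ℝ) * (q : ℝ) ^ (-(15 / 8) : ℝ)) := by
  obtain ⟨C, hC, h⟩ := BurgessComposite.exists_pow_card_primeFactors_le (512 : ℝ) (δ := 1 / 8)
    (by norm_num) (by norm_num)
  refine ⟨C, hC, fun N q => ?_⟩
  rcases Nat.eq_zero_or_pos q with rfl | hq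
  · rw [primeTerm_zero, norm_zero]
    positivity
  refine (norm_fourTerm_le N q hq).trans ((mul_le_mul_of_nonneg_right (h q hq.ne')
    (by positivity)).trans (le_of_eq ?_))
  rw [show (-(15 / 8) : ℝ) = 1 / 8 + -((2 : ℕ) : ℝ) by norm_num,
    Real.rpow_add (Nat.cast_pos.2 hq), Real.rpow_neg (Nat.cast_nonneg q), Real.rpow_natCast]
  ring

theorem summable_fourTerm {N : ℕ} (hN : 1 ≤ N) : Summable fun q => ‖primeTerm 2 4 N q‖ := by
  obtain ⟨C, hC, h⟩ := exists_norm_fourTerm_le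
  refine Summable.of_nonneg_of_le (fun _ => norm_nonneg _) (fun q => (h N q).trans
    (mul_le_mul_of_nonneg_left (mul_le_mul_of_nonneg_right (Nat.cast_le.2 ?_) (by positivity))
      hC.le))
    (((Real.summable_nat_rpow.2 (show (-(15 / 8) : ℝ) < -1 by norm_num)).mul_left (N : ℝ)).mul_left
      C)
  exact Nat.le_of_dvd hN (Nat.gcd_dvd_right q N)

/-- **The term on average.** -/
theorem exists_mean_term_le : ∃ C : ℝ, 0 < C ∧ ∀ X q : ℕ,
    ∑ N ∈ Icc 1 X, ‖primeTerm 2 4 N q‖ ≤ C * X * (q : ℝ) ^ (-(7 / 4) : ℝ) := by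
  obtain ⟨C₁, hC₁, hterm⟩ := exists_norm_fourTerm_le
  obtain ⟨C₂, hC₂, hτ⟩ := RepresentationBound.card_divisors_isBigO (1 / 8) (by norm_num)
  refine ⟨C₁ * C₂, by positivity, fun X q => ?_⟩
  refine (sum_le_sum fun N _ => hterm N q).trans ?_
  rcases Nat.eq_zero_or_pos q with rfl | hq
  · norm_num
  rw [← mul_sum, ← sum_mul]
  have h1 : ∑ N ∈ Icc 1 X, Nat.gcd q N ≤ q.divisors.card * X := by
    refine (sum_le_sum (g := fun N => ∑ d ∈ q.divisors, if d ∣ N then d else 0)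
      fun N _ => ?_).trans ?_
    · refine le_trans (le_of_eq (if_pos (Nat.gcd_dvd_right q N)).symm)
        (single_le_sum (f := fun d => if d ∣ N then d else 0) (fun d _ => Nat.zero_le _)
          (Nat.mem_divisors.2 ⟨Nat.gcd_dvd_left q N, hq.ne'⟩))
    · rw [sum_comm, ← smul_eq_mul, ← sum_const]
      refine sum_le_sum fun d _ => ?_
      rw [← sum_filter, sum_const, smul_eq_mul, show Icc 1 X = Ioc 0 X by ext; simp; omega,
        Nat.Ioc_filter_dvd_card_eq_div]
      exact Nat.div_mul_le_self X d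
  have h2 : ∑ N ∈ Icc 1 X, (Nat.gcd q N : ℝ) ≤ C₂ * (q : ℝ) ^ (1 / 8 : ℝ) * X := by
    refine le_trans ?_ (mul_le_mul_of_nonneg_right (hτ q hq.ne') (Nat.cast_nonneg X))
    exact_mod_cast h1
  refine (mul_le_mul_of_nonneg_left (mul_le_mul_of_nonneg_right h2 (by positivity))
    hC₁.le).trans (le_of_eq ?_)
  rw [show (-(7 / 4) : ℝ) = 1 / 8 + -(15 / 8) by norm_num, Real.rpow_add (Nat.cast_pos.2 hq)]
  ring

/-- **The tail on average.** -/
theorem exists_mean_tail : ∃ C : ℝ, 0 < C ∧ ∀ X Q : ℕ,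
    ∑ N ∈ Icc 1 X, |primeSeries 2 4 N - (∑ q ∈ Icc 1 Q, primeTerm 2 4 N q).re| ≤
      C * X * ((Q + 1 : ℕ) : ℝ) ^ (-(1 / 2) : ℝ) ∧
    ∑ N ∈ Icc 1 X, ‖∑ q ∈ Icc 1 Q, primeTerm 2 4 N q‖ ≤ C * X := by
  obtain ⟨C, hC, hterm⟩ := exists_mean_term_le
  have hs : Summable fun q : ℕ => (q : ℝ) ^ (-(5 / 4) : ℝ) :=
    Real.summable_nat_rpow.2 (by norm_num)
  obtain ⟨Z, hZ⟩ : ∃ Z : ℝ, Z = ∑' q : ℕ, (q : ℝ) ^ (-(5 / 4) : ℝ) := ⟨_, rfl⟩
  have hZ0 : 0 ≤ Z := hZ ▸ tsum_nonneg fun q => by positivity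
  refine ⟨C * (Z + 1), by positivity, fun X Q => ⟨?_, ?_⟩⟩
  · have hsum : ∀ N ∈ Icc 1 X, Summable fun i => ‖primeTerm 2 4 N (i + (Q + 1))‖ := fun N hN =>
      (summable_nat_add_iff (f := fun q => ‖primeTerm 2 4 N q‖) (Q + 1)).2
        (summable_fourTerm (mem_Icc.1 hN).1)
    refine (sum_le_sum (g := fun N => ∑' i, ‖primeTerm 2 4 N (i + (Q + 1))‖)
      fun N hN => ?_).trans ?_
    · have h0 : ∑ q ∈ Icc 1 Q, primeTerm 2 4 N q = ∑ q ∈ range (Q + 1), primeTerm 2 4 N q := by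
        refine sum_subset (fun q hq => ?_) fun q hq hq' => ?_
        · rw [mem_Icc] at hq
          rw [mem_range]
          omega
        · rw [mem_range] at hq
          rw [mem_Icc] at hq'
          obtain rfl : q = 0 := by omega
          exact primeTerm_zero 2 4 N
      rw [primeSeries, h0, ← Complex.sub_re,
        ← (summable_fourTerm (mem_Icc.1 hN).1).of_norm.sum_add_tsum_nat_add (Q + 1),
        add_sub_cancel_left]
      exact (Complex.abs_re_le_norm _).trans (norm_tsum_le_tsum_norm (hsum N hN))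
    · rw [← Summable.tsum_finsetSum hsum]
      refine (Summable.tsum_le_tsum (g := fun i : ℕ =>
        C * X * ((Q + 1 : ℕ) : ℝ) ^ (-(1 / 2) : ℝ) * ((i + (Q + 1) : ℕ) : ℝ) ^ (-(5 / 4) : ℝ))
        (fun i => ?_) (summable_sum hsum)
        (((summable_nat_add_iff (Q + 1)).2 hs).mul_left _)).trans ?_
      · refine (hterm X _).trans ?_
        have hi : (0 : ℝ) < ((i + (Q + 1) : ℕ) : ℝ) := Nat.cast_pos.2 (by omega)
        rw [show (-(7 / 4) : ℝ) = -(1 / 2) + -(5 / 4) by norm_num, Real.rpow_add hi, mul_assoc,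
          mul_assoc, mul_assoc]
        refine mul_le_mul_of_nonneg_left (mul_le_mul_of_nonneg_left (mul_le_mul_of_nonneg_right ?_
          (by positivity)) (Nat.cast_nonneg X)) hC.le
        exact Real.rpow_le_rpow_of_nonpos (Nat.cast_pos.2 (by omega)) (Nat.cast_le.2 (by omega))
          (by norm_num)
      · rw [tsum_mul_left]
        have h1 := hs.sum_add_tsum_nat_add (Q + 1)
        have h2 : 0 ≤ ∑ i ∈ range (Q + 1), (i : ℝ) ^ (-(5 / 4) : ℝ) :=
          sum_nonneg fun q _ => by positivity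
        rw [← hZ] at h1
        refine (mul_le_mul_of_nonneg_left
          (show ∑' i : ℕ, ((i + (Q + 1) : ℕ) : ℝ) ^ (-(5 / 4) : ℝ) ≤ Z + 1 by linarith)
          (by positivity)).trans (le_of_eq ?_)
        ring
  · refine (sum_le_sum fun N _ => norm_sum_le _ _).trans ?_
    rw [sum_comm]
    refine (sum_le_sum fun q hq => (hterm X q).trans (mul_le_mul_of_nonneg_left
      (Real.rpow_le_rpow_of_exponent_le ?_ (show (-(7 / 4) : ℝ) ≤ -(5 / 4) by norm_num))
      (by positivity))).trans ?_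
    · exact_mod_cast (mem_Icc.1 hq).1
    · rw [← mul_sum]
      refine (mul_le_mul_of_nonneg_left ((hs.sum_le_tsum _ fun q _ => by positivity).trans
        (show (∑' q : ℕ, (q : ℝ) ^ (-(5 / 4) : ℝ)) ≤ Z + 1 by linarith)) (by positivity)).trans
        (le_of_eq ?_)
      ring

/-! ### Positivity -/

theorem exists_local_solution {N : ℕ} (hN : N % 24 = 4) {p : ℕ} (hp : p.Prime) :
    ∃ z : Fin 4 → ℕ, (∀ i, z i ∈ unitResidues (p ^ localExp 2 p)) ∧
      ((p ^ localExp 2 p : ℕ) : ℤ) ∣ ((∑ i, z i ^ 2 : ℕ) : ℤ) - N := by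
  by_cases h23 : p = 2 ∨ p = 3
  · refine ⟨fun _ => 1, fun i => ?_, ?_⟩
    · rw [unitResidues, mem_filter, mem_range]
      exact ⟨Nat.one_lt_pow (by have := one_le_localExp 2 p; omega) hp.one_lt,
        Nat.coprime_one_right _⟩
    · rcases h23 with rfl | rfl
      · rw [localExp_two_two]
        simp only [one_pow, sum_const, card_univ, Fintype.card_fin, smul_eq_mul, mul_one]
        omega
      · rw [localExp_two_of_ne hp (by norm_num)]
        simp only [one_pow, sum_const, card_univ, Fintype.card_fin, smul_eq_mul, mul_one, pow_one]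
        omega
  push Not at h23
  rw [localExp_two_of_ne hp h23.1, pow_one]
  have h5 : 5 ≤ p := by
    have := hp.two_le
    have : p ≠ 4 := fun h => absurd (h ▸ hp) (by decide)
    omega
  have : NeZero p := ⟨hp.ne_zero⟩
  have : Fact p.Prime := ⟨hp⟩
  have hsmall : ∀ m : ℕ, 0 < m → m < p → ((m : ℕ) : ZMod p) ≠ 0 := fun m h1 h2 h => by
    rw [ZMod.natCast_eq_zero_iff] at h
    exact absurd (Nat.le_of_dvd h1 h) (by omega)
  obtain ⟨u, hu, hm⟩ : ∃ u : ZMod p, u ≠ 0 ∧ (N : ZMod p) - u ^ 2 ≠ 0 := by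
    by_cases h : (N : ZMod p) - 1 ^ 2 = 0
    · exact ⟨2, by exact_mod_cast hsmall 2 (by norm_num) (by omega), fun h' =>
        (show (3 : ZMod p) ≠ 0 by exact_mod_cast hsmall 3 (by norm_num) (by omega))
          (by linear_combination h - h')⟩
    · exact ⟨1, one_ne_zero, h⟩
  obtain ⟨x, y, w, hx, hy, hw, hxyw⟩ := exists_three_squares hp h5 _ fun _ => hm
  refine ⟨![u.val, x.val, y.val, w.val], fun i => ?_, ?_⟩
  · have key : ∀ t : ZMod p, t ≠ 0 → t.val ∈ unitResidues p := fun t ht => by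
      rw [unitResidues, mem_filter, mem_range, hp.coprime_iff_not_dvd]
      refine ⟨ZMod.val_lt _, fun hd => ht ?_⟩
      rw [← ZMod.natCast_zmod_val t, ZMod.natCast_eq_zero_iff]
      exact hd
    fin_cases i
    exacts [key u hu, key x hx, key y hy, key w hw]
  · rw [← ZMod.intCast_zmod_eq_zero_iff_dvd]
    simp [Fin.sum_univ_four]
    linear_combination hxyw

/-- The local factors. -/
theorem primeDensity_spec_four {N : ℕ} (hN : N % 24 = 4) {p : ℕ} (hp : p.Prime) :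
    ∃ v : ℝ, primeDensity 2 4 N p = v ∧
      ((p ^ localExp 2 p : ℕ) : ℝ) / ((p ^ localExp 2 p).totient : ℝ) ^ 4 ≤ v ∧
      1 - 64 * (p : ℝ) ^ (-2 : ℝ) ≤ v := by
  obtain ⟨z, hz, hzN⟩ := exists_local_solution hN hp
  have e := (primeDensity_eq (by norm_num) (by norm_num) N hp).trans
    ((sum_primeSummand_primePow hp 2 4 N (localExp 2 p)).symm.trans
      (sum_primeSummand_eq 2 4 N (pow_pos hp.pos _)))
  refine ⟨_, e, div_le_div_of_nonneg_right (le_mul_of_one_le_right (Nat.cast_nonneg _) ?_)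
    (by positivity), ?_⟩
  · rw [Nat.one_le_cast, Finset.one_le_card]
    exact ⟨z, mem_filter.2 ⟨Fintype.mem_piFinset.2 hz, hzN⟩⟩
  · rw [show (-2 : ℝ) = -((2 : ℕ) : ℝ) by norm_num, Real.rpow_neg (Nat.cast_nonneg p),
      Real.rpow_natCast, ← div_eq_mul_inv]
    rcases Nat.lt_or_ge p 7 with h7 | h7
    · refine le_trans (sub_nonpos.2 ?_) (by positivity)
      rw [le_div_iff₀ (pow_pos (Nat.cast_pos.2 hp.pos) 2), one_mul]
      have h : p ^ 2 ≤ 64 := (Nat.pow_le_pow_left h7.le 2).trans (by norm_num)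
      exact_mod_cast h
    · have h1 := congrArg Complex.re
        ((primeDensity_eq (by norm_num) (by norm_num) N hp).symm.trans e)
      have h2 := (fourTerm_prime_bounds hp (by omega) N).2 h7
      have hl : localExp 2 p = 1 := localExp_two_of_ne hp (by omega)
      rw [hl] at h1 ⊢
      simp only [sum_range_succ, range_zero, sum_empty, zero_add, pow_zero, primeTerm_one, pow_one,
        Complex.add_re, Complex.one_re, Complex.ofReal_re] at h1 ⊢
      linarith

/-- **The singular series is bounded below.** -/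
theorem exists_series_pos : ∃ c : ℝ, 0 < c ∧ ∀ N, N % 24 = 4 → c ≤ primeSeries 2 4 N := by
  obtain ⟨a, ha⟩ : ∃ a : ℕ → ℝ, a = fun p : ℕ => 64 * (p : ℝ) ^ (-2 : ℝ) := ⟨_, rfl⟩
  have hasum : Summable a := ha ▸ (Real.summable_nat_rpow.2 (by norm_num)).mul_left _
  have ha0 : ∀ p, 0 ≤ a p := fun p => by rw [ha]; positivity
  obtain ⟨p₀, hp₀⟩ := ((tendsto_sum_nat_add a).eventually
    (eventually_le_nhds (show (0 : ℝ) < 1 / 2 by norm_num))).exists
  obtain ⟨m, hm⟩ : ∃ m : ℕ → ℝ, m = fun p : ℕ =>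
      ((p ^ localExp 2 p : ℕ) : ℝ) / ((p ^ localExp 2 p).totient : ℝ) ^ 4 := ⟨_, rfl⟩
  have hm0 : ∀ p ∈ Nat.primesBelow p₀, 0 < m p := fun p hp => by
    have h1 := pow_pos (Nat.mem_primesBelow.1 hp).2.pos (localExp 2 p)
    have h2 := Nat.totient_pos.2 h1
    rw [hm]
    exact div_pos (Nat.cast_pos.2 h1) (pow_pos (Nat.cast_pos.2 h2) 4)
  refine ⟨(∏ p ∈ Nat.primesBelow p₀, m p) * (1 / 2), mul_pos (prod_pos hm0) (by norm_num),
    fun N hN => ?_⟩
  have hE := EulerProduct.eulerProduct (f := primeTerm 2 4 N) (primeTerm_one 2 4 N)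
    (fun h => primeTerm_mul 2 4 N h) (summable_fourTerm (show 1 ≤ N by omega))
    (primeTerm_zero 2 4 N)
  refine ge_of_tendsto ((Complex.continuous_re.tendsto _).comp hE)
    (eventually_atTop.2 ⟨p₀, fun n hn => ?_⟩)
  obtain ⟨S, hS⟩ : ∃ S, S = Nat.primesBelow n := ⟨_, rfl⟩
  obtain ⟨d, hd⟩ : ∃ d : ℕ → ℝ, d = fun p => (primeDensity 2 4 N p).re := ⟨_, rfl⟩
  have hspec : ∀ p, p.Prime → primeDensity 2 4 N p = (d p : ℂ) ∧ m p ≤ d p ∧ 1 - a p ≤ d p := by
    intro p hp
    obtain ⟨v, hv, h1, h2⟩ := primeDensity_spec_four hN hp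
    have : d p = v := by rw [hd]; simp [hv]
    rw [this, hm, ha]
    exact ⟨hv, h1, h2⟩
  have hreal : ∏ p ∈ S, ∑' e, primeTerm 2 4 N (p ^ e) = ((∏ p ∈ S, d p : ℝ) : ℂ) := by
    rw [Complex.ofReal_prod]
    exact prod_congr rfl fun p hp => (hspec p (Nat.mem_primesBelow.1 (hS ▸ hp)).2).1
  simp only [Function.comp, ← hS, hreal, Complex.ofReal_re]
  have hlow : S.filter (fun p => p < p₀) = Nat.primesBelow p₀ := by
    ext p
    simp only [hS, mem_filter, Nat.mem_primesBelow]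
    exact ⟨fun h => ⟨h.2, h.1.2⟩, fun h => ⟨⟨h.1.trans_le hn, h.2⟩, h.1⟩⟩
  rw [← prod_filter_mul_prod_filter_not S (fun p => p < p₀), hlow]
  have hsum : ∑ p ∈ S.filter (fun p => ¬p < p₀), a p ≤ 1 / 2 := by
    refine le_trans ?_ hp₀
    refine (sum_le_sum_of_subset_of_nonneg (t := Ico p₀ n) (fun p hp => ?_)
      fun p _ _ => ha0 p).trans ?_
    · rw [hS, mem_filter, Nat.mem_primesBelow] at hp
      exact mem_Ico.2 ⟨not_lt.1 hp.2, hp.1.1⟩
    · rw [sum_Ico_eq_sum_range]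
      simp only [add_comm p₀]
      exact ((summable_nat_add_iff p₀).2 hasum).sum_le_tsum _ fun i _ => ha0 _
  refine mul_le_mul (prod_le_prod (fun p hp => (hm0 p hp).le)
    fun p hp => (hspec p (Nat.mem_primesBelow.1 hp).2).2.1) ?_ (by norm_num)
    (prod_nonneg fun p hp =>
      le_trans (hm0 p hp).le (hspec p (Nat.mem_primesBelow.1 hp).2).2.1)
  have hle1 : ∀ p ∈ S.filter (fun p => ¬p < p₀), a p ≤ 1 := fun p hp =>
    ((single_le_sum (fun q _ => ha0 q) hp).trans hsum).trans (by norm_num)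
  refine le_trans (by linarith) ((WaringAsymptotic.one_sub_sum_le_prod _ a (fun p _ => ha0 p)
    hle1).trans (prod_le_prod (fun p hp => sub_nonneg.2 (hle1 p hp)) fun p hp => ?_))
  exact (hspec p (Nat.mem_primesBelow.1 (hS ▸ (mem_filter.1 hp).1)).2).2.2

end FA.FourPrimeSquares
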